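import Fermat.Agent.S56.H716.TBDefs
import Fermat.Agent.S19.H435.OfModel

/-!
# Row S56 — FLAT-O (flat tangent bound at `p`, reducible case): interface (helper906)

Plan and all the mathematics: `coord/S56-FLATO-helper906.md` on `origin/helper906`.

`FlatOStatement`  ⇐  (FI) + (FT) + (FU) + (KUM) + (TAMEFROB) + (UNRHOM)      (assembly = piece ASM)

Everything local at `p` is phrased on the landed A3 Hopf lattices
(`Fermat.Agent.S19.H435.IsHopfLattice`): a `ℤ_(p)`-subalgebra `Λ ⊂ (M → ℚ̄)` of equivariant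
functions on a finite Galois module `M`, closed under `f ↦ f(x + y)`.  A Prelude `IsFlatAt`
gives such a lattice by `Fermat.Agent.S19.H435.exists_isHopfLattice_of_hopfModel`; quotients
are `IsHopfLattice.quotient`.

* `UnrValStatement` (UNR): an inertia-fixed element of `ℚ̄` has the valuation of a power of `p`.
* `LemmaAStatement` (A): a point of order `p` all of whose coordinates are `≡` the coordinates
  of `0` modulo `lam`, where `v(lam)^(p-1) < v(p)`, is `0`.
* `FlatInertiaStatement` (FI): an inertia-fixed point in the subgroup generated by the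
  `σ y - y`, `σ ∈ I_P`, is `0`.                                           [(UNR) + (A)]
* `FlatTameStatement` (FT): if inertia acts on `x ≠ 0` through `𝔽_p^×`, the character is trivial
  or the cyclotomic character.                                        [(UNR) + (A) + leading terms]
* `FlatUnitStatement` (FU): unit resolvent = "peu ramifié".
* `KumStatement` (KUM): the peu ramifié classes in `H¹(D_P, k(a))`, `a|_I = ω`, span `≤ 1`
  dimension.
* `TameFrobStatement`, `UnramHomStatement`: structure of `D_P / wild inertia`.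

Nothing is proved in this file; nothing is `sorry`.
-/

set_option autoImplicit false

open Polynomial IsLocalRing

noncomputable section

namespace Fermat.Agent.S56.H906

open Fermat.Agent.S56 Fermat.Agent.S56.H716

/-- `ℤ_(p)` (the Prelude ring). -/
abbrev Zp (p : ℕ) : Type := Fermat.Agent.S19.H435.Zl p

/-- Hopf lattices of cell A3. -/
abbrev IsHL (p : ℕ) {M : Type} [AddCommGroup M] (act : GQ → M → M)
    (Λ : Subalgebra (Zp p) (M → Qb)) : Prop :=
  Fermat.Agent.S19.H435.IsHopfLattice p act Λ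

/-! ## Local flatness inputs -/

/-- (UNR) the inertia field is unramified: the valuation of an inertia-fixed element is an
integral power of the valuation of `p`. -/
def UnrValStatement : Prop :=
  ∀ p : ℕ, p.Prime → ∀ P : ValuationSubring Qb, P.LiesOverPrime p →
    ∀ y : Qb, y ≠ 0 → (∀ σ ∈ P.inertiaSubgroupIn ℚ, σ y = y) →
      ∃ n : ℤ, P.valuation y = P.valuation (p : Qb) ^ n

/-- (A) rigidity of points of order `p` ("Lemma A", all `p`; for `lam = p` it needs `p ≥ 3`). -/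
def LemmaAStatement : Prop :=
  ∀ (p : ℕ) [Fact p.Prime] (M : Type) [AddCommGroup M] [Finite M] (act : GQ → M → M)
    (Λ : Subalgebra (Zp p) (M → Qb)), IsHL p act Λ →
    ∀ P : ValuationSubring Qb, P.LiesOverPrime p →
    ∀ (x : M) (lam : Qb), p • x = 0 →
      P.valuation lam ^ (p - 1) < P.valuation (p : Qb) →
      (∀ f ∈ Λ, P.valuation (f x - f 0) ≤ P.valuation lam) → x = 0

/-- (FI) connected–étale, Galois-module form: `(I_aug M) ∩ M^I = 0` for a flat `M` killed by
`p`, `p` odd. -/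
def FlatInertiaStatement : Prop :=
  ∀ (p : ℕ) [Fact p.Prime], p ≠ 2 →
    ∀ (M : Type) [AddCommGroup M] [Finite M] (act : GQ → M → M)
    (Λ : Subalgebra (Zp p) (M → Qb)), IsHL p act Λ → (∀ x : M, p • x = 0) →
    ∀ P : ValuationSubring Qb, P.LiesOverPrime p → ∀ x : M,
      (∀ σ ∈ P.inertiaSubgroupIn ℚ, act σ x = x) →
      x ∈ AddSubgroup.closure
        {z : M | ∃ σ ∈ P.inertiaSubgroupIn ℚ, ∃ y : M, z = act σ y - y} →
      x = 0

/-- (FT) Raynaud's tame characters in the only case needed: if inertia acts on a nonzero point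
`x` of a flat `M` (killed by `p`, `p` odd) through scalars of `𝔽_p`, then it acts trivially or
through the cyclotomic character. -/
def FlatTameStatement : Prop :=
  ∀ (p : ℕ) [Fact p.Prime], p ≠ 2 →
    ∀ (M : Type) [AddCommGroup M] [Finite M] (act : GQ → M → M)
    (Λ : Subalgebra (Zp p) (M → Qb)), IsHL p act Λ → (∀ x : M, p • x = 0) →
    ∀ P : ValuationSubring Qb, P.LiesOverPrime p → ∀ x : M, x ≠ 0 →
      (∀ τ ∈ P.inertiaSubgroupIn ℚ, ∃ n : ℕ, act τ x = n • x) →
      (∀ τ ∈ P.inertiaSubgroupIn ℚ, act τ x = x) ∨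
        (∀ τ ∈ P.inertiaSubgroupIn ℚ, ∀ a : ℕ, IsCycExp p τ a → act τ x = a • x)

/-- (FU) unit resolvent.  `H := {σ ∈ I_P : σ ζ = ζ}`; `L ⊂ M` a subgroup fixed pointwise by `H`
and containing all `σ y - y` (`σ ∈ H`).  Then for every point `x` and every additive character
`ξ : M → 𝔽_p` the Kummer character `σ ↦ ζ^{ξ(σ x - x)}` of `H` is the Kummer character of a
`P`-unit. -/
def FlatUnitStatement : Prop :=
  ∀ (p : ℕ) [Fact p.Prime]
    (M : Type) [AddCommGroup M] [Finite M] (act : GQ → M → M)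
    (Λ : Subalgebra (Zp p) (M → Qb)), IsHL p act Λ → (∀ x : M, p • x = 0) →
    ∀ P : ValuationSubring Qb, P.LiesOverPrime p →
    ∀ ζ : Qb, IsPrimitiveRoot ζ p → ∀ L : AddSubgroup M,
      (∀ σ ∈ P.inertiaSubgroupIn ℚ, σ ζ = ζ → ∀ t ∈ L, act σ t = t) →
      (∀ σ ∈ P.inertiaSubgroupIn ℚ, σ ζ = ζ → ∀ y : M, act σ y - y ∈ L) →
      ∀ (ξ : M →+ ZMod p) (x : M),
        ∃ B : Qb, P.valuation B = 1 ∧
          ∀ σ ∈ P.inertiaSubgroupIn ℚ, σ ζ = ζ → σ B = ζ ^ (ξ (act σ x - x)).val * B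

/-! ## Local Galois cohomology at `p` -/

section Loc

variable (p : ℕ) (P : ValuationSubring Qb) {k : Type} [Field k]

/-- `a` has finite level on `D_P`. -/
def HasLevelOn (a : GQ → k) : Prop :=
  ∃ L : IntermediateField ℚ Qb, FiniteDimensional ℚ L ∧
    ∀ σ ∈ P.decompositionSubgroup ℚ, ∀ τ ∈ P.decompositionSubgroup ℚ,
      (∀ x ∈ L, τ x = x) → a (σ * τ) = a σ

/-- `a : G_ℚ → k` restricts to a character of `D_P` of finite level. -/
structure IsLocChar (a : GQ → k) : Prop where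
  map_one : a 1 = 1
  map_mul : ∀ σ ∈ P.decompositionSubgroup ℚ, ∀ τ ∈ P.decompositionSubgroup ℚ,
    a (σ * τ) = a σ * a τ
  level : HasLevelOn P a

/-- `a` is a character of `D_P` which is the mod-`p` cyclotomic character on inertia. -/
structure IsOrdChar (a : GQ → k) : Prop extends IsLocChar P a where
  cyc : ∀ σ ∈ P.inertiaSubgroupIn ℚ, ∀ n : ℕ, IsCycExp p σ n → a σ = (n : k)

/-- `c` restricts to a cocycle `D_P → k(a)` of finite level. -/
structure IsLocCocycle (a c : GQ → k) : Prop where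
  map_mul : ∀ σ ∈ P.decompositionSubgroup ℚ, ∀ τ ∈ P.decompositionSubgroup ℚ,
    c (σ * τ) = c σ + a σ * c τ
  level : HasLevelOn P c

/-- `c` is *peu ramifié*: every `𝔽_p`-component of `c`, restricted to `{σ ∈ I_P : σ ζ = ζ}`,
is the Kummer character of a `P`-unit. -/
def IsPeu (c : GQ → k) : Prop :=
  ∀ ζ : Qb, IsPrimitiveRoot ζ p → ∀ ℓ : k →+ ZMod p,
    ∃ B : Qb, P.valuation B = 1 ∧
      ∀ σ ∈ P.inertiaSubgroupIn ℚ, σ ζ = ζ → σ B = ζ ^ (ℓ (c σ)).val * B

end Loc

/-- (KUM) the peu ramifié classes in `H¹(D_P, k(a))`, `a|_{I_P}` cyclotomic, span at most one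
dimension. -/
def KumStatement : Prop :=
  ∀ (p : ℕ) [Fact p.Prime], p ≠ 2 → ∀ (k : Type) [Field k] [Finite k] [CharP k p]
    (P : ValuationSubring Qb), P.LiesOverPrime p → ∀ a : GQ → k, IsOrdChar p P a →
    ∃ c₀ : GQ → k, ∀ c : GQ → k, IsLocCocycle P a c → IsPeu p P c →
      ∃ lam m : k, ∀ σ ∈ P.decompositionSubgroup ℚ, c σ = lam * c₀ σ + (a σ - 1) * m

/-- (TAMEFROB) a character `D_P → k^×` (`k` finite of characteristic `p`) has values in
`𝔽_p^×` on inertia. -/
def TameFrobStatement : Prop :=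
  ∀ (p : ℕ) [Fact p.Prime] (k : Type) [Field k] [Finite k] [CharP k p]
    (P : ValuationSubring Qb), P.LiesOverPrime p → ∀ a : GQ → k, IsLocChar P a →
    ∀ τ ∈ P.inertiaSubgroupIn ℚ, a τ ^ p = a τ

/-- (UNRHOM) `D_P / I_P` is procyclic: an unramified homomorphism `D_P → k` of finite level
vanishing at one (suitable) element `φ` vanishes. -/
def UnramHomStatement : Prop :=
  ∀ (p : ℕ), p.Prime → ∀ (P : ValuationSubring Qb), P.LiesOverPrime p →
    ∃ φ ∈ P.decompositionSubgroup ℚ, ∀ (k : Type) [Field k] (h : GQ → k),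
      (∀ σ ∈ P.decompositionSubgroup ℚ, ∀ τ ∈ P.decompositionSubgroup ℚ,
        h (σ * τ) = h σ + h τ) →
      HasLevelOn P h → (∀ σ ∈ P.inertiaSubgroupIn ℚ, h σ = 0) → h φ = 0 →
      ∀ σ ∈ P.decompositionSubgroup ℚ, h σ = 0

/-! ## The local bound -/

section Top

variable {k : Type} [Field k] (ρbar : ResidualGaloisRep k) (P : ValuationSubring Qb)

/-- `H⁰(D_P, ad⁰ ρ̄)`: trace-zero endomorphisms commuting with `ρ̄(D_P)`. -/
def adInv : Submodule k (Module.End k ρbar.V) where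
  carrier := {m | LinearMap.trace k ρbar.V m = 0 ∧
    ∀ σ ∈ P.decompositionSubgroup ℚ, ρbar.ρ σ * m = m * ρbar.ρ σ}
  add_mem' := by
    rintro a b ⟨ha, ha'⟩ ⟨hb, hb'⟩
    refine ⟨by rw [map_add, ha, hb, add_zero], fun σ hσ => ?_⟩
    rw [mul_add, add_mul, ha' σ hσ, hb' σ hσ]
  zero_mem' := ⟨map_zero _, fun σ _ => by rw [mul_zero, zero_mul]⟩
  smul_mem' := by
    rintro r a ⟨ha, ha'⟩
    refine ⟨by rw [map_smul, ha, smul_zero], fun σ hσ => ?_⟩
    rw [mul_smul_comm, smul_mul_assoc, ha' σ hσ]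

/-- `c` and `t` are cohomologous on `D_P` (as `ad⁰`-valued cochains). -/
def CohomOn (c t : GQ → Module.End k ρbar.V) : Prop :=
  ∃ m : Module.End k ρbar.V, LinearMap.trace k ρbar.V m = 0 ∧
    ∀ σ ∈ P.decompositionSubgroup ℚ, c σ - t σ = ρbar.ρ σ * m * ρbar.ρ σ⁻¹ - m

end Top

/-- The local flat bound at `P | p`: all flat tangent cocycles (any `Q`) lie, on `D_P` and modulo
coboundaries, in one `k`-space of dimension `≤ h⁰(D_P, ad⁰ ρ̄) + 1`. -/
def LocalBoundFlatAt (𝒪 : Type) [CommRing 𝒪] [IsLocalRing 𝒪] (p : ℕ)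
    (ρbar : ResidualGaloisRep (ResidueField 𝒪)) (Smin : Finset ℕ)
    (P : ValuationSubring Qb) : Prop :=
  ∃ T : Submodule (ResidueField 𝒪) (GQ → Module.End (ResidueField 𝒪) ρbar.V),
    Module.Finite (ResidueField 𝒪) T ∧
    Module.finrank (ResidueField 𝒪) T ≤ Module.finrank (ResidueField 𝒪) (adInv ρbar P) + 1 ∧
    ∀ (Q : Finset ℕ) (c : GQ → Module.End (ResidueField 𝒪) ρbar.V),
      IsTanCocycle 𝒪 ρbar (flatCond 𝒪 p Smin Q) c → ∃ t ∈ T, CohomOn ρbar P c t

/-- `ρ̄|_{D_P}` is reducible. -/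
def IsReducibleAt {k : Type} [Field k] (ρbar : ResidualGaloisRep k)
    (P : ValuationSubring Qb) : Prop :=
  ∃ W : Submodule k ρbar.V, W ≠ ⊥ ∧ W ≠ ⊤ ∧
    ∀ σ ∈ P.decompositionSubgroup ℚ, ∀ x ∈ W, ρbar.ρ σ x ∈ W

/-- (FLAT-O) the local flat bound when `ρ̄|_{D_P}` is reducible. -/
def FlatOStatement : Prop :=
  ∀ (𝒪 : Type) [CommRing 𝒪] [IsDomain 𝒪] [IsDiscreteValuationRing 𝒪]
    [IsAdicComplete (maximalIdeal 𝒪) 𝒪] [Finite (ResidueField 𝒪)]
    (p : ℕ) (ρbar : ResidualGaloisRep (ResidueField 𝒪)) (S Smin : Finset ℕ),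
    Hyp 𝒪 p ρbar S Smin → ∀ P : ValuationSubring Qb, P.LiesOverPrime p →
      IsReducibleAt ρbar P → LocalBoundFlatAt 𝒪 p ρbar Smin P

/-- (FLAT-SS) the local flat bound when `ρ̄|_{D_P}` is irreducible (owner: FL plan of helper426). -/
def FlatSSStatement : Prop :=
  ∀ (𝒪 : Type) [CommRing 𝒪] [IsDomain 𝒪] [IsDiscreteValuationRing 𝒪]
    [IsAdicComplete (maximalIdeal 𝒪) 𝒪] [Finite (ResidueField 𝒪)]
    (p : ℕ) (ρbar : ResidualGaloisRep (ResidueField 𝒪)) (S Smin : Finset ℕ),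
    Hyp 𝒪 p ρbar S Smin → ∀ P : ValuationSubring Qb, P.LiesOverPrime p →
      ¬ IsReducibleAt ρbar P → LocalBoundFlatAt 𝒪 p ρbar Smin P

/-- (FLAT) = (FLAT-O) + (FLAT-SS): the local flat bound at every `P | p`. -/
def FlatStatement : Prop :=
  ∀ (𝒪 : Type) [CommRing 𝒪] [IsDomain 𝒪] [IsDiscreteValuationRing 𝒪]
    [IsAdicComplete (maximalIdeal 𝒪) 𝒪] [Finite (ResidueField 𝒪)]
    (p : ℕ) (ρbar : ResidualGaloisRep (ResidueField 𝒪)) (S Smin : Finset ℕ),
    Hyp 𝒪 p ρbar S Smin → ∀ P : ValuationSubring Qb, P.LiesOverPrime p →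
      LocalBoundFlatAt 𝒪 p ρbar Smin P

theorem flat_of_cases (hO : FlatOStatement) (hSS : FlatSSStatement) : FlatStatement := by
  intro 𝒪 _ _ _ _ _ p ρbar S Smin hyp P hP
  by_cases h : IsReducibleAt ρbar P
  · exact hO 𝒪 p ρbar S Smin hyp P hP h
  · exact hSS 𝒪 p ρbar S Smin hyp P hP h

/-- Target of the assembly (piece ASM). -/
def AsmStatement : Prop :=
  FlatInertiaStatement → FlatTameStatement → FlatUnitStatement → KumStatement →
    TameFrobStatement → UnramHomStatement → FlatOStatement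

end Fermat.Agent.S56.H906

end
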