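import Fermat.Agent.S56.H906.LemmaA
import Fermat.Agent.S56.H66.Unr
import Fermat.Agent.A2.H708.Tame

/-!
# S56 / FLAT-O, piece (FI): `(I_aug M) ∩ M^I = 0` for a flat `M` killed by `p`, `p` odd (helper906)

* `redKer P Λ` — the kernel of reduction `M⁰ = {x : f x ≡ f 0 mod 𝔪_P for all f ∈ Λ}`, an
  additive subgroup of `M`.
* `act_sub_mem_redKer` (CE', the easy half of "connected = augmentation"):
  `act σ y - y ∈ M⁰` for `σ ∈ I_P`;  `closure_le_redKer`: `I_aug M ≤ M⁰`.
* `eq_zero_of_mem_redKer_of_fixed` (INV): an inertia-fixed point of `M⁰` of order `p` is `0`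
  (`p` odd).
* `flatInertia : FlatInertiaStatement`.
-/

set_option autoImplicit false
set_option linter.unusedSectionVars false

noncomputable section

namespace Fermat.Agent.S56.H906

open Fermat.Agent.S56

section RedKer

variable {p : ℕ} [Fact p.Prime] {M : Type} [AddCommGroup M] {act : GQ → M → M}
  {Λ : Subalgebra (Zp p) (M → Qb)} (P : ValuationSubring Qb)

/-- Membership in the kernel of reduction. -/
def InRedKer (Λ : Subalgebra (Zp p) (M → Qb)) (x : M) : Prop :=
  ∀ f ∈ Λ, P.valuation (f x - f 0) < 1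

theorem inRedKer_zero : InRedKer P Λ (0 : M) := by
  intro f _
  rw [sub_self, map_zero]
  exact zero_lt_one

/-- The key congruence: if `b k y ≡ b k y'` for all `b ∈ Λ`, then `f (x + y) ≡ f (x + y')`. -/
theorem valuation_comul_sub_lt (hΛ : IsHL p act Λ) (hP : P.LiesOverPrime p) {f : M → Qb}
    (hf : f ∈ Λ) (x y y' : M) (h : ∀ g ∈ Λ, P.valuation (g y - g y') < 1) :
    P.valuation (f (x + y) - f (x + y')) < 1 := by
  obtain ⟨n, a, b, ha, hb, hab⟩ := hΛ.comul_mem f hf
  rw [hab, hab, ← Finset.sum_sub_distrib]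
  refine Valuation.map_sum_lt _ one_ne_zero fun k _ => ?_
  rw [← mul_sub, map_mul]
  have h1 : P.valuation (a k x) ≤ 1 :=
    (ValuationSubring.valuation_le_one_iff P _).mpr (apply_mem P hΛ hP (ha k) x)
  calc P.valuation (a k x) * P.valuation (b k y - b k y')
      ≤ 1 * P.valuation (b k y - b k y') := by gcongr
    _ = P.valuation (b k y - b k y') := one_mul _
    _ < 1 := h _ (hb k)

theorem inRedKer_add (hΛ : IsHL p act Λ) (hP : P.LiesOverPrime p) {x y : M}
    (hx : InRedKer P Λ x) (hy : InRedKer P Λ y) : InRedKer P Λ (x + y) := by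
  intro f hf
  have h1 := valuation_comul_sub_lt P hΛ hP hf x y 0 hy
  rw [add_zero] at h1
  have h2 := hx f hf
  have : f (x + y) - f 0 = (f (x + y) - f x) + (f x - f 0) := by ring
  rw [this]
  exact Valuation.map_add_lt _ h1 h2

theorem inRedKer_neg (hΛ : IsHL p act Λ) (hP : P.LiesOverPrime p) {x : M}
    (hx : InRedKer P Λ x) : InRedKer P Λ (-x) := by
  intro f hf
  have h1 := valuation_comul_sub_lt P hΛ hP hf (-x) 0 x (fun g hg => by
    rw [← Valuation.map_neg, neg_sub]
    exact hx g hg)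
  rw [add_zero, neg_add_cancel] at h1
  exact h1

/-- The kernel of reduction `M⁰`. -/
def redKer (hΛ : IsHL p act Λ) (hP : P.LiesOverPrime p) : AddSubgroup M where
  carrier := {x | InRedKer P Λ x}
  zero_mem' := inRedKer_zero P
  add_mem' := fun hx hy => inRedKer_add P hΛ hP hx hy
  neg_mem' := fun hx => inRedKer_neg P hΛ hP hx

theorem mem_redKer (hΛ : IsHL p act Λ) (hP : P.LiesOverPrime p) (x : M) :
    x ∈ redKer P hΛ hP ↔ ∀ f ∈ Λ, P.valuation (f x - f 0) < 1 := Iff.rfl

/-- (CE') `σ y - y` lies in the kernel of reduction for `σ` in the inertia group. -/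
theorem act_sub_mem_redKer (hΛ : IsHL p act Λ) (hP : P.LiesOverPrime p) {σ : GQ}
    (hσ : σ ∈ P.inertiaSubgroupIn ℚ) (y : M) : act σ y - y ∈ redKer P hΛ hP := by
  intro f hf
  have h1 := valuation_comul_sub_lt P hΛ hP hf (-y) (act σ y) y (fun g hg => by
    rw [hΛ.equivariant g hg σ y]
    exact (ValuationSubring.mem_nonunits_iff P).mp
      (Fermat.Agent.A2.H708.sub_mem_nonunits_of_mem_inertiaIn P hσ (apply_mem P hΛ hP hg y)))
  rw [neg_add_cancel, neg_add_eq_sub] at h1
  exact h1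

/-- `I_aug M ≤ M⁰`. -/
theorem closure_le_redKer (hΛ : IsHL p act Λ) (hP : P.LiesOverPrime p) :
    AddSubgroup.closure {z : M | ∃ σ ∈ P.inertiaSubgroupIn ℚ, ∃ y : M, z = act σ y - y} ≤
      redKer P hΛ hP := by
  rw [AddSubgroup.closure_le]
  rintro z ⟨σ, hσ, y, rfl⟩
  exact act_sub_mem_redKer P hΛ hP hσ y

/-- (INV) an inertia-fixed point of order `p` of the kernel of reduction is `0`, `p` odd. -/
theorem eq_zero_of_mem_redKer_of_fixed [Finite M] (hp2 : p ≠ 2) (hΛ : IsHL p act Λ)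
    (hP : P.LiesOverPrime p) {x : M} (hpx : p • x = 0) (hx : x ∈ redKer P hΛ hP)
    (hfix : ∀ σ ∈ P.inertiaSubgroupIn ℚ, act σ x = x) : x = 0 := by
  have hp : p.Prime := Fact.out
  have hvp : P.valuation (p : Qb) < 1 := (ValuationSubring.mem_nonunits_iff P).mp hP
  have hvp0 : P.valuation (p : Qb) ≠ 0 :=
    (Valuation.ne_zero_iff _).mpr (by exact_mod_cast hp.ne_zero)
  refine lemmaA p M act Λ hΛ P hP x (p : Qb) hpx ?_ ?_
  · -- `v(p)^(p-1) < v(p)`
    obtain ⟨q, hq⟩ : ∃ q, p - 1 = q + 1 + 1 := ⟨p - 3, by have := hp.two_le; omega⟩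
    rw [hq, pow_succ]
    calc P.valuation (p : Qb) ^ (q + 1) * P.valuation (p : Qb)
        < 1 * P.valuation (p : Qb) := by
          refine mul_lt_mul_of_pos_right ?_ (zero_lt_iff.mpr hvp0)
          exact pow_lt_one₀ zero_le hvp (by omega)
      _ = P.valuation (p : Qb) := one_mul _
  · intro f hf
    refine Fermat.Agent.S56.H66.vg0_le p hp P hP _ ((ValuationSubring.mem_nonunits_iff P).mpr
      (hx f hf)) fun σ hσ => ?_
    rw [map_sub, ← hΛ.equivariant f hf σ x, ← hΛ.equivariant f hf σ 0, hfix σ hσ,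
      Fermat.Agent.S19.H435.IsHopfLattice.act_zero hΛ σ]

end RedKer

/-- **(FI)**. -/
theorem flatInertia : FlatInertiaStatement := by
  intro p _ hp2 M _ _ act Λ hΛ hkill P hP x hfix hx
  exact eq_zero_of_mem_redKer_of_fixed P hp2 hΛ hP (hkill x)
    (closure_le_redKer P hΛ hP hx) hfix

end Fermat.Agent.S56.H906

end
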