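import Fermat.Agent.S56.H906.FlatOSpec
import Fermat.Agent.S14.H714.Val

/-!
# S56 / FLAT-O, piece (A): rigidity of points of order `p` of a Hopf lattice (helper906)

`lemmaA : LemmaAStatement`.  Newton's forward differences for `n ↦ f (n • x)`; no completion, no
units of the convolution ring.

Reusable: `zp_mem`, `apply_mem` (values of a Hopf lattice lie in `P`), `pspan` (the `P`-span of a
Hopf lattice), `translate` and `delta_mem` (the difference operator maps `P·Λ` into `μ·P·Λ`).
-/

set_option autoImplicit false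
set_option linter.unusedSectionVars false

open Polynomial

noncomputable section

namespace Fermat.Agent.S56.H906

open Fermat.Agent.S56

section Basic

variable {p : ℕ} (P : ValuationSubring Qb)

/-- `ℤ_(p) ⊂ P` for `P` above `p`. -/
theorem zp_mem (hp : p.Prime) (hP : P.LiesOverPrime p) (r : Zp p) :
    algebraMap (Zp p) Qb r ∈ P := by
  have hr : (r : ℚ).den.Coprime p := r.2
  have h1 : algebraMap (Zp p) Qb r = algebraMap ℚ Qb (r : ℚ) := rfl
  rw [h1]
  have h2 : (r : ℚ) = ((r : ℚ).num : ℚ) / ((r : ℚ).den : ℚ) := (Rat.num_div_den _).symm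
  rw [h2, map_div₀, map_intCast, map_natCast]
  have hden : ((r : ℚ).den : Qb) ∉ P.nonunits := by
    have := Fermat.Agent.S14.H714.intCast_not_mem_nonunits P hp hP (n := ((r : ℚ).den : ℤ))
      (by
        intro hd
        have hd' : p ∣ (r : ℚ).den := by exact_mod_cast hd
        have := Nat.Coprime.eq_one_of_dvd hr.symm hd'
        exact hp.one_lt.ne' this)
    simpa using this
  have hdenmem : (((r : ℚ).den : Qb))⁻¹ ∈ P :=
    (Fermat.Agent.S14.H714.inv_mem_of_not_mem_nonunits P hden).2
  rw [div_eq_mul_inv]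
  exact mul_mem (intCast_mem P _) hdenmem

/-- An element of `ℚ̄` which is integral over `ℤ_(p)` lies in `P`. -/
theorem mem_of_isIntegral_zp (hp : p.Prime) (hP : P.LiesOverPrime p) {y : Qb}
    (hy : IsIntegral (Zp p) y) : y ∈ P := by
  obtain ⟨q, hq, hqy⟩ := hy
  -- the ring hom `ℤ_(p) → P`
  let ι : Zp p →+* P :=
    { toFun := fun r => ⟨algebraMap (Zp p) Qb r, zp_mem P hp hP r⟩
      map_one' := Subtype.ext (map_one _)
      map_mul' := fun a b => Subtype.ext (map_mul _ a b)
      map_zero' := Subtype.ext (map_zero _)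
      map_add' := fun a b => Subtype.ext (map_add _ a b) }
  have hint : IsIntegral P y := by
    refine ⟨q.map ι, hq.map ι, ?_⟩
    rw [Polynomial.eval₂_map]
    have : (algebraMap P Qb).comp ι = algebraMap (Zp p) Qb := by
      ext r; rfl
    rw [this]
    exact hqy
  obtain ⟨z, hz⟩ := (IsIntegrallyClosed.isIntegral_iff (R := P) (K := Qb)).mp hint
  rw [← hz]
  exact z.2

end Basic

section Lattice

variable {p : ℕ} [Fact p.Prime] {M : Type} [AddCommGroup M] {act : GQ → M → M}
  {Λ : Subalgebra (Zp p) (M → Qb)} (P : ValuationSubring Qb)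

/-- Values of the functions of a Hopf lattice lie in every `P` above `p`. -/
theorem apply_mem (hΛ : IsHL p act Λ) (hP : P.LiesOverPrime p) {f : M → Qb} (hf : f ∈ Λ)
    (m : M) : f m ∈ P :=
  mem_of_isIntegral_zp P (Fact.out : p.Prime) hP
    (Fermat.Agent.S19.H435.IsHopfLattice.isIntegral_apply hΛ hf m)

/-- The `P`-span of a lattice of functions. -/
def pspan (Λ : Subalgebra (Zp p) (M → Qb)) : Submodule P (M → Qb) :=
  Submodule.span P (Λ : Set (M → Qb))

theorem subset_pspan {f : M → Qb} (hf : f ∈ Λ) : f ∈ pspan P Λ :=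
  Submodule.subset_span hf

/-- Values of elements of the `P`-span lie in `P`. -/
theorem pspan_apply_mem (hΛ : IsHL p act Λ) (hP : P.LiesOverPrime p) {F : M → Qb}
    (hF : F ∈ pspan P Λ) (m : M) : F m ∈ P := by
  induction hF using Submodule.span_induction with
  | mem f hf => exact apply_mem P hΛ hP hf m
  | zero => exact P.zero_mem
  | add F G _ _ hF hG => exact P.add_mem _ _ hF hG
  | smul a F _ hF => exact P.mul_mem _ _ a.2 hF

/-- Translation by `x`. -/
def translate (x : M) : Module.End Qb (M → Qb) := LinearMap.funLeft Qb Qb (fun y => y + x)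

@[simp] theorem translate_apply (x : M) (F : M → Qb) (y : M) : translate x F y = F (y + x) := rfl

theorem translate_pow (x : M) (n : ℕ) : translate x ^ n = translate (n • x) := by
  induction n with
  | zero =>
    ext F y
    simp [translate, LinearMap.funLeft]
  | succ n ih =>
    rw [pow_succ, ih]
    ext F y
    simp only [Module.End.mul_apply, translate_apply, succ_nsmul]
    congr 1
    abel

/-- The difference operator `F ↦ F(· + x) - F`. -/
def delta (x : M) : Module.End Qb (M → Qb) := translate x - 1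

theorem delta_apply (x : M) (F : M → Qb) (y : M) : delta x F y = F (y + x) - F y := rfl

/-- If all coordinates of `x` are congruent to those of `0` modulo `μ`, then the difference
operator maps `P·Λ` into `μ·P·Λ`. -/
theorem delta_mem (hΛ : IsHL p act Λ) (x : M) (μ : Qb) (hμ : μ ≠ 0)
    (hle : ∀ g ∈ Λ, P.valuation (g x - g 0) ≤ P.valuation μ)
    {F : M → Qb} (hF : F ∈ pspan P Λ) :
    ∃ G ∈ pspan P Λ, delta x F = μ • G := by
  induction hF using Submodule.span_induction with
  | mem f hf =>
    obtain ⟨n, a, b, ha, hb, hab⟩ := hΛ.comul_mem f hf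
    have hq : ∀ k, (b k x - b k 0) / μ ∈ P := by
      intro k
      rw [← ValuationSubring.valuation_le_one_iff, map_div₀]
      exact div_le_one_of_le₀ (hle _ (hb k)) zero_le
    refine ⟨∑ k, (⟨(b k x - b k 0) / μ, hq k⟩ : P) • a k,
      Submodule.sum_mem _ fun k _ => Submodule.smul_mem _ _ (subset_pspan P (ha k)), ?_⟩
    funext y
    rw [delta_apply]
    have h1 := hab y x
    have h2 := hab y 0
    rw [add_zero] at h2
    rw [h1]
    conv_lhs => rw [h2]
    rw [← Finset.sum_sub_distrib]
    simp only [Pi.smul_apply, Finset.sum_apply, smul_eq_mul, Finset.mul_sum]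
    refine Finset.sum_congr rfl fun k _ => ?_
    show a k y * b k x - a k y * b k 0 = μ * (((b k x - b k 0) / μ) * a k y)
    field_simp
  | zero => exact ⟨0, Submodule.zero_mem _, by simp⟩
  | add F G _ _ hF hG =>
    obtain ⟨F', hF', hF''⟩ := hF
    obtain ⟨G', hG', hG''⟩ := hG
    exact ⟨F' + G', Submodule.add_mem _ hF' hG', by rw [map_add, hF'', hG'', smul_add]⟩
  | smul a F _ hF =>
    obtain ⟨F', hF', hF''⟩ := hF
    refine ⟨a • F', Submodule.smul_mem _ _ hF', ?_⟩
    have : (a • F : M → Qb) = (a : Qb) • F := rfl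
    rw [this, map_smul, hF'']
    have : (a • F' : M → Qb) = (a : Qb) • F' := rfl
    rw [this, smul_comm]

/-- Iterated differences. -/
theorem delta_pow_mem (hΛ : IsHL p act Λ) (x : M) (μ : Qb) (hμ : μ ≠ 0)
    (hle : ∀ g ∈ Λ, P.valuation (g x - g 0) ≤ P.valuation μ) (j : ℕ)
    {F : M → Qb} (hF : F ∈ pspan P Λ) :
    ∃ G ∈ pspan P Λ, (delta x ^ j) F = μ ^ j • G := by
  induction j generalizing F with
  | zero => exact ⟨F, hF, by simp⟩
  | succ j ih =>
    obtain ⟨G, hG, hG'⟩ := delta_mem P hΛ x μ hμ hle hF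
    obtain ⟨G₂, hG₂, hG₂'⟩ := ih hG
    refine ⟨G₂, hG₂, ?_⟩
    rw [pow_succ, Module.End.mul_apply, hG', map_smul, hG₂', smul_smul, ← pow_succ']

/-- The binomial expansion of `translate (p • x)` evaluated at `0`. -/
theorem sum_choose_delta (x : M) (n : ℕ) (F : M → Qb) :
    F (n • x) = ∑ m ∈ Finset.range (n + 1), (n.choose m : Qb) * (delta x ^ m) F 0 := by
  have h1 : translate x = delta x + 1 := by rw [delta]; abel
  have h2 : translate x ^ n = ∑ m ∈ Finset.range (n + 1),
      delta x ^ m * 1 ^ (n - m) * (n.choose m : Module.End Qb (M → Qb)) := by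
    rw [h1]
    exact (Commute.one_right (delta x)).add_pow n
  have h3 := congrFun (congrArg (fun T : Module.End Qb (M → Qb) => T F) h2) 0
  simp only [translate_pow, translate_apply, zero_add] at h3
  rw [h3, LinearMap.sum_apply, Finset.sum_apply]
  refine Finset.sum_congr rfl fun m _ => ?_
  rw [one_pow, mul_one, Module.End.mul_apply]
  have : ∀ k : ℕ, ((k : Module.End Qb (M → Qb))) F = (k : Qb) • F := by
    intro k
    rw [Nat.cast_smul_eq_nsmul]
    induction k with
    | zero => simp
    | succ k ih => simp [add_smul, ih]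
  rw [this, map_smul, Pi.smul_apply, smul_eq_mul]

end Lattice

/-- **(A)** rigidity of points of order `p`. -/
theorem lemmaA : LemmaAStatement := by
  intro p _ M _ _ act Λ hΛ P hP x lam hpx hlam hle
  have hp : p.Prime := Fact.out
  by_contra hx
  set v := P.valuation with hv
  have hvp : v (p : Qb) < 1 := (ValuationSubring.mem_nonunits_iff P).mp hP
  have hlam1 : v lam < 1 := by
    by_contra hcon
    rw [not_lt] at hcon
    have : (1 : P.ValueGroup) ≤ v lam ^ (p - 1) := one_le_pow₀ hcon
    exact absurd (lt_of_le_of_lt this (lt_trans hlam hvp)) (lt_irrefl _)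
  obtain ⟨f₀, hf₀, hne⟩ := hΛ.separates x 0 hx
  obtain ⟨n, e, he, -, -, hexp⟩ := Fermat.Agent.S19.H435.IsHopfLattice.exists_basis hΛ
  -- coordinates of a general element
  have hcoord : ∀ g ∈ Λ, ∃ c : Fin n → Zp p,
      g x - g 0 = ∑ i, algebraMap (Zp p) Qb (c i) * (e i x - e i 0) := by
    intro g hg
    obtain ⟨c, hc⟩ := hexp g hg
    refine ⟨c, ?_⟩
    have h1 : ∀ y : M, g y = ∑ i, algebraMap (Zp p) Qb (c i) * e i y := by
      intro y
      rw [hc, Finset.sum_apply]
      refine Finset.sum_congr rfl fun i _ => ?_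
      rw [Pi.smul_apply, Algebra.smul_def]
    rw [h1 x, h1 0, ← Finset.sum_sub_distrib]
    exact Finset.sum_congr rfl fun i _ => by ring
  -- some coordinate difference is nonzero
  have hex : ∃ i, e i x - e i 0 ≠ 0 := by
    by_contra hcon
    push Not at hcon
    obtain ⟨c, hc⟩ := hcoord f₀ hf₀
    apply hne
    rw [← sub_eq_zero, hc]
    exact Finset.sum_eq_zero fun i _ => by rw [hcon i, mul_zero]
  obtain ⟨i₁, hi₁⟩ := hex
  obtain ⟨i₀, -, hi₀⟩ := Finset.exists_max_image Finset.univ (fun i => v (e i x - e i 0))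
    ⟨i₁, Finset.mem_univ _⟩
  set μ := e i₀ x - e i₀ 0 with hμdef
  have hμ0 : μ ≠ 0 := by
    intro h0
    have h1 := hi₀ i₁ (Finset.mem_univ _)
    rw [h0, map_zero] at h1
    exact hi₁ ((Valuation.zero_iff v).mp (le_antisymm h1 zero_le))
  have hvμ0 : v μ ≠ 0 := (Valuation.ne_zero_iff v).mpr hμ0
  have hmax : ∀ g ∈ Λ, v (g x - g 0) ≤ v μ := by
    intro g hg
    obtain ⟨c, hc⟩ := hcoord g hg
    rw [hc]
    refine Valuation.map_sum_le v fun i _ => ?_
    rw [map_mul]
    calc v (algebraMap (Zp p) Qb (c i)) * v (e i x - e i 0)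
        ≤ 1 * v (e i x - e i 0) := by
          gcongr
          exact (ValuationSubring.valuation_le_one_iff P _).mpr (zp_mem P hp hP (c i))
      _ = v (e i x - e i 0) := one_mul _
      _ ≤ v μ := hi₀ i (Finset.mem_univ _)
  have hμlam : v μ ≤ v lam := hle _ (he i₀)
  have hμ1 : v μ < 1 := lt_of_le_of_lt hμlam hlam1
  have hμp : v μ ^ (p - 1) < v (p : Qb) :=
    lt_of_le_of_lt (pow_le_pow_left₀ zero_le hμlam _) hlam
  -- Newton
  have hN := sum_choose_delta x p (e i₀)
  rw [hpx] at hN
  obtain ⟨q, hq⟩ : ∃ q, p = q + 2 := ⟨p - 2, by have := hp.two_le; omega⟩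
  have hterm : ∀ m, ∃ g : Qb, g ∈ P ∧ (delta x ^ m) (e i₀) 0 = μ ^ m * g := by
    intro m
    obtain ⟨G, hG, hG'⟩ := delta_pow_mem P hΛ x μ hμ0 hmax m (subset_pspan P (he i₀))
    exact ⟨G 0, pspan_apply_mem P hΛ hP hG 0, by rw [hG']; rfl⟩
  rw [hq, Finset.sum_range_succ', Finset.sum_range_succ'] at hN
  simp only [Nat.choose_zero_right, Nat.cast_one, pow_zero, Module.End.one_apply, one_mul,
    zero_add, Nat.choose_one_right, pow_one] at hN
  have hd1 : delta x (e i₀) 0 = μ := by rw [delta_apply, zero_add]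
  rw [hd1, ← hq] at hN
  have hsum : (p : Qb) * μ = - ∑ k ∈ Finset.range (q + 1),
      ((p.choose (k + 1 + 1) : ℕ) : Qb) * (delta x ^ (k + 1 + 1)) (e i₀) 0 := by
    have := hN
    linear_combination -this
  have hlt : v (∑ k ∈ Finset.range (q + 1),
      ((p.choose (k + 1 + 1) : ℕ) : Qb) * (delta x ^ (k + 1 + 1)) (e i₀) 0) < v ((p : Qb) * μ) := by
    have hpm0 : v ((p : Qb) * μ) ≠ 0 := by
      rw [map_mul]
      exact mul_ne_zero ((Valuation.ne_zero_iff v).mpr (by exact_mod_cast hp.ne_zero)) hvμ0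
    refine Valuation.map_sum_lt v hpm0 fun k hk => ?_
    obtain ⟨g, hg, hg'⟩ := hterm (k + 1 + 1)
    have hg1 : v g ≤ 1 := (ValuationSubring.valuation_le_one_iff P _).mpr hg
    rw [hg', map_mul, map_mul, map_pow, map_mul]
    rw [Finset.mem_range] at hk
    by_cases hkq : k = q
    · -- the last term: choose = 1
      subst hkq
      rw [← hq, Nat.choose_self, Nat.cast_one, map_one, one_mul]
      have h1 : v μ ^ p = v μ ^ (p - 1) * v μ := by
        rw [← pow_succ]; congr 1; have := hp.two_le; omega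
      rw [h1]
      calc v μ ^ (p - 1) * v μ * v g ≤ v μ ^ (p - 1) * v μ * 1 := by gcongr
        _ = v μ ^ (p - 1) * v μ := mul_one _
        _ < v (p : Qb) * v μ := by
          exact mul_lt_mul_of_pos_right hμp (zero_lt_iff.mpr hvμ0)
    · -- middle terms: `p ∣ choose`
      have hk2 : k + 1 + 1 < p := by omega
      have hdvd : p ∣ p.choose (k + 1 + 1) := hp.dvd_choose_self (by omega) hk2
      obtain ⟨t, ht⟩ := hdvd
      have hc : v ((p.choose (k + 1 + 1) : ℕ) : Qb) ≤ v (p : Qb) := by
        rw [ht, Nat.cast_mul, map_mul]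
        calc v (p : Qb) * v (t : Qb) ≤ v (p : Qb) * 1 := by
              gcongr
              exact (ValuationSubring.valuation_le_one_iff P _).mpr (natCast_mem P t)
          _ = v (p : Qb) := mul_one _
      have hμk : v μ ^ (k + 1 + 1) < v μ := by
        calc v μ ^ (k + 1 + 1) = v μ ^ (k + 1) * v μ := pow_succ _ _
          _ < 1 * v μ := by
            refine mul_lt_mul_of_pos_right ?_ (zero_lt_iff.mpr hvμ0)
            exact pow_lt_one₀ zero_le hμ1 (by omega)
          _ = v μ := one_mul _
      calc v ((p.choose (k + 1 + 1) : ℕ) : Qb) * (v μ ^ (k + 1 + 1) * v g)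
          ≤ v (p : Qb) * (v μ ^ (k + 1 + 1) * 1) := by gcongr
        _ = v (p : Qb) * v μ ^ (k + 1 + 1) := by rw [mul_one]
        _ < v (p : Qb) * v μ := by
          refine mul_lt_mul_of_pos_left hμk (zero_lt_iff.mpr ?_)
          exact (Valuation.ne_zero_iff v).mpr (by exact_mod_cast hp.ne_zero)
  rw [hsum, Valuation.map_neg] at hlt
  exact lt_irrefl _ hlt

end Fermat.Agent.S56.H906

end
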