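import Fermat.Agent.S56.FL.Top
import Fermat.Agent.S56.H906.FlatOSpec

/-!
# Row S56 — FLAT-O: the assembly interface, v2 (helper906)

Target: `Fermat.Agent.S56.FL.FlatOStatement` (main, `FL/Top.lean`; consumed by `FL.locFlatP_of`).

    FL.FlatOStatement  ⇐  STRUCT + KUM + UNRHOM            (`CountStatement`,  piece COUNT)
    STRUCT             ⇐  FI + FT + FU + TAMEFROB + CE     (`StructGlueStatement`, piece STRUCT)

Leaves `FlatInertiaStatement` (FI, done), `FlatTameStatement` (FT), `FlatUnitStatement` (FU),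
`KumStatement` (KUM), `TameFrobStatement` (TAMEFROB), `UnramHomStatement` (UNRHOM): verbatim from
`H906/FlatOSpec.lean`.  New leaf `CEStatement` (CE, "kernel of reduction = augmentation").

Mathematics (`V = ρ̄`, `Y = k[ε] ⊗ V` with the action `liftEnd c`, flat by hypothesis; `E = εY ≅ V`):
* S1: `L₀ := I_aug V` is a `D_P`-stable line `k ℓ₀`                         (FI, FT, TAMEFROB).
* S2: `N := I_aug Y` is contained in `k[ε] n₀`, `n₀ = 1 ⊗ ℓ₀ + ε ⊗ ℓ₁`          (CE' for `Y`, CE for `E`).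
* S3: with `m ℓ₀ = ℓ₁`, the cocycle `c' = c + ∂m` stabilises `k ℓ₀` on `D_P`, has image in `k ℓ₀` on
  `I_P`, and all `σ ↦ ξ (c' σ v)` are Kummer characters of units on `I₁ = {σ ∈ I_P : σ ζ = ζ}`  (FU).
* COUNT: in a basis `(ℓ₀, e₂)`, `c' = [a b; 0 -a]` on `D_P`, `a` an unramified homomorphism
  (UNRHOM: determined by `a φ`), `b (στ) = b σ + χ σ · b τ - 2 a τ · β' σ`; classes with `a = 0` are
  peu ramifié cocycles of `k(χ)`, `χ|_I = ω` (KUM: at most a line, spanned by the class `β'` of `V`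
  itself when `V|_{D_P}` is non-split).  So `dim ≤ 1` (non-split), `≤ 2 = h⁰ + 1` (split).

Nothing is proved in this file except the trivial final glue; nothing is `sorry`.
-/

set_option autoImplicit false

open Polynomial IsLocalRing

noncomputable section

namespace Fermat.Agent.S56.H906

open Fermat.Agent.S56 Fermat.Agent.S56.H716

/-- **(CE)** "kernel of reduction = augmentation": a point of a flat `M` (killed by `p`, `p` odd)
which reduces to `0` modulo `𝔪_P` lies in the subgroup generated by the `σ y - y`, `σ ∈ I_P`.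
(The converse inclusion is `H906.closure_le_redKer`, file `H906/FI.lean`.) -/
def CEStatement : Prop :=
  ∀ (p : ℕ) [Fact p.Prime], p ≠ 2 →
    ∀ (M : Type) [AddCommGroup M] [Finite M] (act : GQ → M → M)
    (Λ : Subalgebra (Zp p) (M → Qb)), IsHL p act Λ → (∀ x : M, p • x = 0) →
    ∀ P : ValuationSubring Qb, P.LiesOverPrime p → ∀ x : M,
      (∀ f ∈ Λ, P.valuation (f x - f 0) < 1) →
      x ∈ AddSubgroup.closure
        {z : M | ∃ σ ∈ P.inertiaSubgroupIn ℚ, ∃ y : M, z = act σ y - y}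

section FO

variable {k : Type} [Field k] (ρbar : ResidualGaloisRep k) (p : ℕ) (P : ValuationSubring Qb)

/-- `ℓ₀` spans a `D_P`-stable line containing all `ρ̄(σ) v - v`, `σ ∈ I_P` (so the line is
`I_aug V`, since inertia at `p` acts non-trivially: `det ρ̄ = ω`). -/
def IsFOLine (ℓ₀ : ρbar.V) : Prop :=
  ℓ₀ ≠ 0 ∧ (∀ σ ∈ P.decompositionSubgroup ℚ, ∃ θ : k, ρbar.ρ σ ℓ₀ = θ • ℓ₀) ∧
    ∀ σ ∈ P.inertiaSubgroupIn ℚ, ∀ v : ρbar.V, ∃ s : k, ρbar.ρ σ v - v = s • ℓ₀

/-- `h : G_ℚ → V` is *peu ramifié*: for every additive character `ξ : V → 𝔽_p` the function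
`σ ↦ ζ ^ ξ (h σ)` on `I₁ = {σ ∈ I_P : σ ζ = ζ}` is the Kummer character of a `P`-unit. -/
def IsPeuV (h : GQ → ρbar.V) : Prop :=
  ∀ ζ : Qb, IsPrimitiveRoot ζ p → ∀ ξ : ρbar.V →+ ZMod p,
    ∃ B : Qb, P.valuation B = 1 ∧
      ∀ σ ∈ P.inertiaSubgroupIn ℚ, σ ζ = ζ → σ B = ζ ^ (ξ (h σ)).val * B

/-- The normal form of a flat tangent cocycle in the reducible case: on `D_P` it stabilises the
line `k ℓ₀`, on `I_P` it has image in `k ℓ₀`, and it is peu ramifié. -/
def IsFONormal (ℓ₀ : ρbar.V) (c' : GQ → Module.End k ρbar.V) : Prop :=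
  (∀ σ ∈ P.decompositionSubgroup ℚ, ∃ a : k, c' σ ℓ₀ = a • ℓ₀) ∧
  (∀ σ ∈ P.inertiaSubgroupIn ℚ, ∀ v : ρbar.V, ∃ t : k, c' σ v = t • ℓ₀) ∧
  ∀ v : ρbar.V, IsPeuV ρbar p P (fun σ => c' σ v)

/-- The structure of a flat tangent cocycle `c` in the reducible case: a line `k ℓ₀` as in
`IsFOLine`, `ρ̄` itself is peu ramifié, and `c` is cohomologous (by `m`) to a cocycle in normal
form. -/
def IsFOData (c : GQ → Module.End k ρbar.V) (ℓ₀ : ρbar.V) (m : Module.End k ρbar.V) : Prop :=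
  IsFOLine ρbar P ℓ₀ ∧
  (∀ v : ρbar.V, IsPeuV ρbar p P (fun σ => ρbar.ρ σ v - v)) ∧
  IsFONormal ρbar p P ℓ₀ (fun σ => c σ + (ρbar.ρ σ * m * ρbar.ρ σ⁻¹ - m))

end FO

/-- **(STRUCT)** structure of the flat lifts to the dual numbers when `ρ̄|_{D_P}` is reducible. -/
def StructStatement : Prop :=
  ∀ (k : Type) [Field k] [Finite k] (p : ℕ) [Fact p.Prime], p ≠ 2 → CharP k p →
    ∀ (ρbar : ResidualGaloisRep k),
      (∀ (σ : GQ) (a : ℕ), IsCycExp p σ a → LinearMap.det (ρbar.ρ σ) = (a : k)) →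
      ∀ (P : ValuationSubring Qb), P.LiesOverPrime p →
        (∃ U : Submodule k ρbar.V, U ≠ ⊥ ∧ U ≠ ⊤ ∧
          ∀ σ ∈ P.decompositionSubgroup ℚ, ∀ x ∈ U, ρbar.ρ σ x ∈ U) →
        ∀ (c : GQ → Module.End k ρbar.V), IsAdCocycle ρbar c →
          ∀ (ρ' : GaloisRepAdic (DualNumber k)), IsLiftOf ρbar c ρ' → ρ'.IsFlatAt p →
            ∃ (ℓ₀ : ρbar.V) (m : Module.End k ρbar.V), IsFOData ρbar p P c ℓ₀ m

/-- Piece **STRUCT** (owner helper906). -/
def StructGlueStatement : Prop :=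
  FlatInertiaStatement → FlatTameStatement → FlatUnitStatement → TameFrobStatement →
    CEStatement → StructStatement

/-- Piece **COUNT**: pure local Galois cohomology (no Hopf lattices). -/
def CountStatement : Prop :=
  StructStatement → KumStatement → UnramHomStatement → FL.FlatOStatement

/-- FLAT-O from its pieces and leaves. -/
theorem flatO_of (hS : StructGlueStatement) (hC : CountStatement)
    (hFI : FlatInertiaStatement) (hFT : FlatTameStatement) (hFU : FlatUnitStatement)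
    (hTF : TameFrobStatement) (hCE : CEStatement) (hK : KumStatement)
    (hU : UnramHomStatement) : FL.FlatOStatement :=
  hC (hS hFI hFT hFU hTF hCE) hK hU

end Fermat.Agent.S56.H906

end
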