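import Fermat.Agent.S56.H906.StructLine
import Fermat.Agent.S56.H656.FlatOCount
import Fermat.Agent.S56.H656.FlatUnit
import Fermat.Agent.S56.H734.KumMain

/-!
# Row S56 — FLAT-O closed: `flatO : FL.FlatOStatement` (helper906, with helper656's COUNT)

* `flatOrdLine : H656.FlatOrdLineStatement` — STRUCT S1 + S2 (`H906.exists_ordLine`), verbatim.
* `flatO : FL.FlatOStatement` — by `H656.flatO_of` (COUNT, helper656) from
  FU (`H656.flatUnit`), KUM (`H734.kum`), UNRHOM (`H486.unramHom`).

Leaves used underneath: UNR (`H66.unrVal`), A (`H906.lemmaA`), FI (`H906.flatInertia`),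
FT (`H486.flatTame`), TAMEFROB (`H486.tameFrob`), CE (`FO.H6.connEt`).
-/

set_option autoImplicit false

open IsLocalRing

noncomputable section

namespace Fermat.Agent.S56.H906

open Fermat.Agent.S56 Fermat.Agent.S56.H716

/-- **STRUCT (S1 + S2)**, in the shape frozen by helper656. -/
theorem flatOrdLine : Fermat.Agent.S56.H656.FlatOrdLineStatement := by
  intro 𝒪 _ _ _ _ _ p ρbar S Smin hyp P hP hred c ρ' _ hlift _ hflat
  have : Fact p.Prime := ⟨hyp.hp⟩
  have hpk : ((p : ℕ) : ResidueField 𝒪) = 0 := by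
    have h := (IsLocalRing.residue_eq_zero_iff (p : 𝒪)).mpr hyp.hp𝒪
    rwa [map_natCast] at h
  have : CharP (ResidueField 𝒪) p := (CharP.charP_iff_prime_eq_zero hyp.hp).mpr hpk
  exact exists_ordLine ρbar P c hyp.hp2
    (fun σ a h => Fermat.Agent.S56.FL.det_eq_natCast_of_isCycExp hyp.hdet h) hP hred ρ' hlift
    hflat

/-- **FLAT-O**: the flat local tangent bound at `p` when `ρ̄|_{D_P}` is reducible. -/
theorem flatO : Fermat.Agent.S56.FL.FlatOStatement :=
  Fermat.Agent.S56.H656.flatO_of flatOrdLine Fermat.Agent.S56.H656.flatUnit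
    Fermat.Agent.S56.H734.kum Fermat.Agent.S56.H486.unramHom

end Fermat.Agent.S56.H906

end
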