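import Fermat.Agent.S56.H906.FlatOTop
import Fermat.Agent.S56.H906.FI
import Fermat.Agent.S56.H656.LocOrdP
import Fermat.Agent.S19.H435.Sub
import Fermat.Agent.S19.H435.FlatGlue

/-!
# S56 / FLAT-O, piece STRUCT, part 0: from `IsFlatAt` to Hopf lattices (helper906)

For a lift `ρ'` of `ρ̄` to the dual numbers with cocycle `c`, flat at `p`:

* `exists_isHL_of_isFlatAt`: a Hopf lattice on `Y = k[ε] ⊗ V` for the action `σ ↦ liftEnd ρbar c σ`;
* `isHL_rhobar`: its pullback to `V` along `v ↦ ε • (1 ⊗ v)` is a Hopf lattice for `ρ̄`.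
-/

set_option autoImplicit false
set_option linter.unusedSectionVars false

open scoped TensorProduct

noncomputable section

namespace Fermat.Agent.S56.H906

open Fermat.Agent.S56 Fermat.Agent.S56.H716 Fermat.Agent.S56.H656

section Bridge

variable {k : Type} [Field k] (ρbar : ResidualGaloisRep k)

/-- The action of `G_ℚ` on `Y = k[ε] ⊗ V` defined by the cocycle `c`. -/
def actY (c : GQ → Module.End k ρbar.V) (σ : GQ) (y : DualNumber k ⊗[k] ρbar.V) :
    DualNumber k ⊗[k] ρbar.V :=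
  liftEnd ρbar c σ y

/-- The action of `G_ℚ` on `V`. -/
def actV (σ : GQ) (v : ρbar.V) : ρbar.V := ρbar.ρ σ v

/-- `v ↦ ε • (1 ⊗ v)`, the inclusion `V ≅ εY ⊂ Y`. -/
def epsIota : ρbar.V →+ (DualNumber k ⊗[k] ρbar.V) :=
  ((DualNumber.eps : DualNumber k) • (LinearMap.id : (DualNumber k ⊗[k] ρbar.V) →ₗ[DualNumber k]
    (DualNumber k ⊗[k] ρbar.V))).toAddMonoidHom.comp (dIota (k := k) (V := ρbar.V)).toAddMonoidHom

theorem epsIota_apply (v : ρbar.V) :
    epsIota ρbar v = (DualNumber.eps : DualNumber k) • dIota (k := k) v := rfl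

theorem dPi0_epsIota (v : ρbar.V) : dPi0 (epsIota ρbar v) = 0 := by
  rw [epsIota_apply, dPi0_smul, DualNumber.fst_eps, zero_smul]

theorem dPi1_epsIota (v : ρbar.V) : dPi1 (epsIota ρbar v) = v := by
  rw [epsIota_apply, dPi1_smul, DualNumber.fst_eps, DualNumber.snd_eps, zero_smul, zero_add,
    one_smul, dPi0_dIota]

theorem epsIota_injective : Function.Injective (epsIota ρbar) := by
  intro v w h
  have := congrArg (fun y => dPi1 y) h
  simpa only [dPi1_epsIota] using this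

theorem actY_epsIota (c : GQ → Module.End k ρbar.V) (σ : GQ) (v : ρbar.V) :
    actY ρbar c σ (epsIota ρbar v) = epsIota ρbar (actV ρbar σ v) := by
  apply coord_ext
  · rw [actY, dPi0_liftEnd, dPi0_epsIota, dPi0_epsIota, map_zero]
  · rw [actY, dPi1_liftEnd, dPi0_epsIota, dPi1_epsIota, dPi1_epsIota, map_zero, map_zero,
      add_zero, actV]

variable [Finite k] {p : ℕ} [Fact p.Prime]

instance finite_dualNumber_h906 : Finite (DualNumber k) :=
  (inferInstance : Finite (k × k))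

instance finite_Y_h906 : Finite (DualNumber k ⊗[k] ρbar.V) :=
  Module.finite_of_finite k

/-- A flat lift gives a Hopf lattice on `Y = k[ε] ⊗ V`. -/
theorem exists_isHL_of_isFlatAt (c : GQ → Module.End k ρbar.V)
    (ρ' : GaloisRepAdic (DualNumber k)) (hlift : IsLiftOf ρbar c ρ') (hflat : ρ'.IsFlatAt p) :
    ∃ Λ : Subalgebra (Zp p) ((DualNumber k ⊗[k] ρbar.V) → Qb), IsHL p (actY ρbar c) Λ := by
  obtain ⟨e, he⟩ := hlift
  have hfin : Finite (DualNumber k ⧸ (⊥ : Ideal (DualNumber k))) :=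
    Finite.of_surjective (Ideal.Quotient.mk ⊥) Ideal.Quotient.mk_surjective
  have hM := ((Fermat.Agent.S19.H435.isFlatAt_iff_hopfModel ρ' p).mp hflat).2 ⊥ hfin
  obtain ⟨Λ₀, hΛ₀⟩ := Fermat.Agent.S19.H435.exists_isHopfLattice_of_hopfModel hM
  let ι : (DualNumber k ⊗[k] ρbar.V) →+
      (ρ'.V ⧸ ((⊥ : Ideal (DualNumber k)) • (⊤ : Submodule (DualNumber k) ρ'.V))) :=
    ((Submodule.mkQ _).comp e.symm.toLinearMap).toAddMonoidHom
  have hι : ∀ y, ι y = Submodule.Quotient.mk (e.symm y) := fun _ => rfl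
  have hinj : Function.Injective ι := by
    intro y y' h
    rw [hι, hι, Submodule.Quotient.eq, Submodule.bot_smul, Submodule.mem_bot, sub_eq_zero] at h
    exact e.symm.injective h
  refine ⟨_, Fermat.Agent.S19.H435.IsHopfLattice.pullback hΛ₀ ι hinj (actY ρbar c) ?_⟩
  intro σ y
  rw [hι, hι]
  show _ = ρ'.levelAction ⊥ σ (Submodule.Quotient.mk (e.symm y))
  unfold GaloisRepAdic.levelAction
  rw [Submodule.mapQ_apply]
  congr 1
  apply e.injective
  rw [he σ (e.symm y), LinearEquiv.apply_symm_apply, LinearEquiv.apply_symm_apply]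
  rfl

/-- The pullback of a Hopf lattice on `Y` to `V ≅ εY`. -/
def latticeV (Λ : Subalgebra (Zp p) ((DualNumber k ⊗[k] ρbar.V) → Qb)) :
    Subalgebra (Zp p) (ρbar.V → Qb) :=
  Λ.map (Fermat.Agent.S19.H435.precompAlgHom p (epsIota ρbar))

theorem mem_latticeV {Λ : Subalgebra (Zp p) ((DualNumber k ⊗[k] ρbar.V) → Qb)}
    {g : ρbar.V → Qb} :
    g ∈ latticeV ρbar Λ ↔ ∃ f ∈ Λ, g = fun v => f (epsIota ρbar v) := by
  constructor
  · rintro ⟨f, hf, rfl⟩
    exact ⟨f, hf, rfl⟩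
  · rintro ⟨f, hf, rfl⟩
    exact ⟨f, hf, rfl⟩

theorem isHL_rhobar (c : GQ → Module.End k ρbar.V)
    {Λ : Subalgebra (Zp p) ((DualNumber k ⊗[k] ρbar.V) → Qb)} (hΛ : IsHL p (actY ρbar c) Λ) :
    IsHL p (actV ρbar) (latticeV ρbar Λ) :=
  Fermat.Agent.S19.H435.IsHopfLattice.pullback hΛ (epsIota ρbar) (epsIota_injective ρbar)
    (actV ρbar) (fun σ v => (actY_epsIota ρbar c σ v).symm)

/-- Everything is killed by `p`. -/
theorem nsmul_eq_zero_Y [CharP k p] (y : DualNumber k ⊗[k] ρbar.V) : p • y = 0 := by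
  rw [← Nat.cast_smul_eq_nsmul k, CharP.cast_eq_zero, zero_smul]

theorem nsmul_eq_zero_V [CharP k p] (v : ρbar.V) : p • v = 0 := by
  rw [← Nat.cast_smul_eq_nsmul k, CharP.cast_eq_zero, zero_smul]

end Bridge

end Fermat.Agent.S56.H906

end
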