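import Fermat.Agent.S56.H906.StructS2
import Fermat.Agent.S56.FO.H6.CEMain
import Fermat.Agent.S56.H486.FlatTame
import Fermat.Agent.S56.H486.FlatOLoc

/-!
# S56 / FLAT-O, piece STRUCT, steps S1 + S2 assembled (helper906)

For a flat lift `ρ'` (cocycle `c`) of `ρ̄`, `ρ̄|_{D_P}` reducible, `det ρ̄ = ω`, `p` odd:

* `exists_foPair`: there are `ℓ₀ ≠ 0`, `ℓ₁` in `V` such that `n₀ = 1 ⊗ ℓ₀ + ε ⊗ ℓ₁ ∈ I_aug Y` and
  every element of `I_aug Y` is a `k[ε]`-multiple of `n₀`; `I_aug Y` is `D_P`-stable.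
* `exists_ordLine`: the Prelude shape (`IsOrdinaryAt` at the place `P`): a `k[ε]`-line
  `L = k[ε] ∙ b 0 ⊂ ρ'.V`, `b` a basis, `D_P`-stable, with inertia trivial on `ρ'.V / L`.

Unconditional: uses the landed leaves FI (`H906.flatInertia`), FT (`H486.flatTame`),
TAMEFROB (`H486.tameFrob`), CE (`FO.H6.connEt`).
-/

set_option autoImplicit false
set_option linter.unusedSectionVars false

open scoped TensorProduct

noncomputable section

namespace Fermat.Agent.S56.H906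

open Fermat.Agent.S56 Fermat.Agent.S56.H716 Fermat.Agent.S56.H656

section LinAlg2

variable {k : Type} [Field k] {V : Type} [AddCommGroup V] [Module k V]

theorem exists_basis_eq (hV : Module.finrank k V = 2) {x : V} (hx : x ≠ 0) :
    ∃ b : Module.Basis (Fin 2) k V, b 0 = x := by
  have hfin : Module.Finite k V := Module.finite_of_finrank_eq_succ hV
  have hex : ∃ y : V, y ∉ Submodule.span k {x} := by
    by_contra hcon
    push Not at hcon
    have htop : Submodule.span k {x} = ⊤ := eq_top_iff.mpr fun y _ => hcon y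
    have h1 : Module.finrank k (Submodule.span k {x}) ≤ 1 := by
      refine le_trans (finrank_span_le_card ({x} : Set V)) ?_
      simp
    rw [htop, finrank_top, hV] at h1
    omega
  obtain ⟨y, hy⟩ := hex
  have hli : LinearIndependent k ![x, y] := by
    rw [LinearIndependent.pair_iff' hx]
    intro a ha
    exact hy (Submodule.mem_span_singleton.mpr ⟨a, ha⟩)
  refine ⟨basisOfLinearIndependentOfCardEqFinrank hli (by simp [hV]), ?_⟩
  simp

/-- The element `s + t ε` of the dual numbers. -/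
def dn (s t : k) : DualNumber k := TrivSqZeroExt.inl s + TrivSqZeroExt.inr t

@[simp] theorem fst_dn (s t : k) : TrivSqZeroExt.fst (dn s t) = s := by simp [dn]

@[simp] theorem snd_dn (s t : k) : TrivSqZeroExt.snd (dn s t) = t := by simp [dn]

/-- `n₀ = 1 ⊗ ℓ₀ + ε ⊗ ℓ₁`. -/
def nZero (ℓ₀ ℓ₁ : V) : DualNumber k ⊗[k] V :=
  dIota ℓ₀ + (DualNumber.eps : DualNumber k) • dIota ℓ₁

theorem dPi0_nZero (ℓ₀ ℓ₁ : V) : dPi0 (nZero (k := k) ℓ₀ ℓ₁) = ℓ₀ := by
  rw [nZero, map_add, dPi0_dIota, dPi0_smul, DualNumber.fst_eps, zero_smul, add_zero]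

theorem dPi1_nZero (ℓ₀ ℓ₁ : V) : dPi1 (nZero (k := k) ℓ₀ ℓ₁) = ℓ₁ := by
  rw [nZero, map_add, dPi1_dIota, dPi1_smul, DualNumber.fst_eps, DualNumber.snd_eps, zero_smul,
    zero_add, one_smul, dPi0_dIota, zero_add]

/-- An element with coordinates `(s ℓ₀, s ℓ₁ + t ℓ₀)` is `(s + t ε) • n₀`. -/
theorem eq_dn_smul_nZero {ℓ₀ ℓ₁ : V} {n : DualNumber k ⊗[k] V} {s t : k}
    (h0 : dPi0 n = s • ℓ₀) (h1 : dPi1 n = s • ℓ₁ + t • ℓ₀) :
    n = dn s t • nZero ℓ₀ ℓ₁ := by
  apply coord_ext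
  · rw [dPi0_smul, fst_dn, dPi0_nZero, h0]
  · rw [dPi1_smul, fst_dn, snd_dn, dPi1_nZero, dPi0_nZero, h1]

/-- The unipotent automorphism `1 + ε m` of `k[ε] ⊗ V`. -/
def unipEquiv (m : Module.End k V) :
    (DualNumber k ⊗[k] V) ≃ₗ[DualNumber k] (DualNumber k ⊗[k] V) :=
  LinearEquiv.ofLinearMap
    (LinearMap.id + (DualNumber.eps : DualNumber k) • m.baseChange (DualNumber k))
    (LinearMap.id - (DualNumber.eps : DualNumber k) • m.baseChange (DualNumber k))
    (by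
      apply LinearMap.ext
      intro y
      apply coord_ext
      · simp only [LinearMap.comp_apply, LinearMap.add_apply, LinearMap.sub_apply,
          LinearMap.id_apply, LinearMap.smul_apply, map_add, map_sub, dPi0_smul, dPi0_baseChange,
          DualNumber.fst_eps, zero_smul, add_zero, sub_zero]
      · simp only [LinearMap.comp_apply, LinearMap.add_apply, LinearMap.sub_apply,
          LinearMap.id_apply, LinearMap.smul_apply, map_add, map_sub, dPi1_smul, dPi1_baseChange,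
          dPi0_smul, dPi0_baseChange, DualNumber.fst_eps, DualNumber.snd_eps, zero_smul, one_smul,
          zero_add, map_zero, smul_zero, add_zero]
        abel)
    (by
      apply LinearMap.ext
      intro y
      apply coord_ext
      · simp only [LinearMap.comp_apply, LinearMap.add_apply, LinearMap.sub_apply,
          LinearMap.id_apply, LinearMap.smul_apply, map_add, map_sub, dPi0_smul, dPi0_baseChange,
          DualNumber.fst_eps, zero_smul, add_zero, sub_zero]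
      · simp only [LinearMap.comp_apply, LinearMap.add_apply, LinearMap.sub_apply,
          LinearMap.id_apply, LinearMap.smul_apply, map_add, map_sub, dPi1_smul, dPi1_baseChange,
          dPi0_smul, dPi0_baseChange, DualNumber.fst_eps, DualNumber.snd_eps, zero_smul, one_smul,
          zero_add, add_zero, map_zero, smul_zero, sub_zero]
        abel)

theorem unipEquiv_apply (m : Module.End k V) (y : DualNumber k ⊗[k] V) :
    unipEquiv m y = y + (DualNumber.eps : DualNumber k) • m.baseChange (DualNumber k) y := rfl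

theorem unipEquiv_dIota (m : Module.End k V) (v : V) :
    unipEquiv m (dIota v) = nZero v (m v) := by
  apply coord_ext
  · rw [dPi0_nZero, unipEquiv_apply, map_add, dPi0_smul, DualNumber.fst_eps, zero_smul, add_zero,
      dPi0_dIota]
  · rw [dPi1_nZero, unipEquiv_apply, map_add, dPi1_smul, dPi1_baseChange, dPi0_baseChange,
      DualNumber.fst_eps, DualNumber.snd_eps, zero_smul, one_smul, zero_add, dPi1_dIota,
      dPi0_dIota, zero_add]

end LinAlg2

section Line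

variable {k : Type} [Field k] (ρbar : ResidualGaloisRep k) (P : ValuationSubring Qb)
  (c : GQ → Module.End k ρbar.V)

variable {p : ℕ} [Fact p.Prime] [CharP k p] [Finite k]

/-- `I_aug Y` is stable under the decomposition group. -/
theorem augY_stable {Λ : Subalgebra (Zp p) ((DualNumber k ⊗[k] ρbar.V) → Qb)}
    (hΛ : IsHL p (actY ρbar c) Λ) {τ : GQ} (hτ : τ ∈ P.decompositionSubgroup ℚ)
    {n : DualNumber k ⊗[k] ρbar.V} (hn : n ∈ augY ρbar P c) :
    actY ρbar c τ n ∈ augY ρbar P c := by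
  unfold augY at hn
  induction hn using AddSubgroup.closure_induction with
  | mem z hz =>
    obtain ⟨σ, hσ, y, rfl⟩ := hz
    have hconj := conj_mem_inertia P hτ hσ
    have h1 : actY ρbar c τ (actY ρbar c σ y - y) =
        actY ρbar c (τ * σ * τ⁻¹) (actY ρbar c τ y) - actY ρbar c τ y := by
      rw [actY_sub, ← act_mul hΛ, ← act_mul hΛ, inv_mul_cancel_right]
    rw [h1]
    exact sub_mem_augY ρbar P c hconj _
  | zero =>
    rw [Fermat.Agent.S19.H435.IsHopfLattice.act_zero hΛ]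
    exact zero_mem _
  | add x y _ _ hx hy =>
    rw [Fermat.Agent.S19.H435.IsHopfLattice.act_add hΛ]
    exact add_mem hx hy
  | neg x _ hx =>
    have : actY ρbar c τ (-x) = -actY ρbar c τ x := by
      unfold actY
      exact map_neg _ x
    rw [this]
    exact neg_mem hx

/-- **Steps S1 + S2**: the generator `n₀ = 1 ⊗ ℓ₀ + ε ⊗ ℓ₁` of `I_aug Y`. -/
theorem exists_foPair (hp2 : p ≠ 2)
    (hdet : ∀ (σ : GQ) (a : ℕ), IsCycExp p σ a → LinearMap.det (ρbar.ρ σ) = (a : k))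
    (hP : P.LiesOverPrime p)
    (hred : ∃ U : Submodule k ρbar.V, U ≠ ⊥ ∧ U ≠ ⊤ ∧
      ∀ σ ∈ P.decompositionSubgroup ℚ, ∀ x ∈ U, ρbar.ρ σ x ∈ U)
    {Λ : Subalgebra (Zp p) ((DualNumber k ⊗[k] ρbar.V) → Qb)} (hΛ : IsHL p (actY ρbar c) Λ) :
    ∃ ℓ₀ ℓ₁ : ρbar.V, IsFOLine ρbar P ℓ₀ ∧ nZero ℓ₀ ℓ₁ ∈ augY ρbar P c ∧
      ∀ n ∈ augY ρbar P c, ∃ s t : k, n = dn s t • nZero ℓ₀ ℓ₁ := by
  obtain ⟨ℓ₀, hline, hmem, haug⟩ := exists_isFOLine ρbar P
    Fermat.Agent.S56.H486.flatTame Fermat.Agent.S56.H486.tameFrob hp2 hdet hP hred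
    (isHL_rhobar ρbar c hΛ)
  obtain ⟨n₀, hn₀, h0⟩ := exists_mem_augY_dPi0 ρbar P c hmem
  have hn₀' : n₀ = nZero ℓ₀ (dPi1 n₀) := by
    apply coord_ext
    · rw [dPi0_nZero, h0]
    · rw [dPi1_nZero]
  refine ⟨ℓ₀, dPi1 n₀, hline, hn₀' ▸ hn₀, fun n hn => ?_⟩
  obtain ⟨s, hs⟩ := haug _ (dPi0_mem_augV ρbar P c hn)
  have hn' : n - s • n₀ ∈ augY ρbar P c := sub_mem hn (smul_mem_augY ρbar P c s hn₀)
  have h0' : dPi0 (n - s • n₀) = 0 := by
    rw [map_sub, map_smul, h0, hs, sub_self]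
  obtain ⟨t, ht⟩ := haug _ (dPi1_mem_augV ρbar P c Fermat.Agent.S56.FO.H6.connEt hp2 hP hΛ
    hn' h0')
  refine ⟨s, t, eq_dn_smul_nZero hs ?_⟩
  rw [map_sub, map_smul] at ht
  rw [← ht]
  abel

/-- **Steps S1 + S2, Prelude shape**: a flat lift of a locally reducible `ρ̄` is ordinary at
the place `P`. -/
theorem exists_ordLine (hp2 : p ≠ 2)
    (hdet : ∀ (σ : GQ) (a : ℕ), IsCycExp p σ a → LinearMap.det (ρbar.ρ σ) = (a : k))
    (hP : P.LiesOverPrime p)
    (hred : ∃ U : Submodule k ρbar.V, U ≠ ⊥ ∧ U ≠ ⊤ ∧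
      ∀ σ ∈ P.decompositionSubgroup ℚ, ∀ x ∈ U, ρbar.ρ σ x ∈ U)
    (ρ' : GaloisRepAdic (DualNumber k)) (hlift : IsLiftOf ρbar c ρ') (hflat : ρ'.IsFlatAt p) :
    ∃ L : Submodule (DualNumber k) ρ'.V,
      (∃ b : Module.Basis (Fin 2) (DualNumber k) ρ'.V, L = Submodule.span (DualNumber k) {b 0}) ∧
      (∀ σ ∈ P.decompositionSubgroup ℚ, ∀ v ∈ L, ρ'.ρ σ v ∈ L) ∧
      (∀ σ ∈ P.inertiaSubgroupIn ℚ, ∀ v : ρ'.V, ρ'.ρ σ v - v ∈ L) := by
  obtain ⟨Λ, hΛ⟩ := exists_isHL_of_isFlatAt (p := p) ρbar c ρ' hlift hflat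
  obtain ⟨ℓ₀, ℓ₁, hline, hn₀, hN⟩ := exists_foPair ρbar P c hp2 hdet hP hred hΛ
  obtain ⟨e, he⟩ := hlift
  obtain ⟨bV, hbV⟩ := exists_basis_eq ρbar.finrank_eq hline.1
  let m : Module.End k ρbar.V := (bV.coord 0).smulRight ℓ₁
  have hm : m ℓ₀ = ℓ₁ := by
    show (bV.coord 0) ℓ₀ • ℓ₁ = ℓ₁
    rw [← hbV, Module.Basis.coord_apply, Module.Basis.repr_self, Finsupp.single_eq_same, one_smul]
  let b : Module.Basis (Fin 2) (DualNumber k) ρ'.V :=
    ((bV.baseChange (DualNumber k)).map (unipEquiv m)).map e.symm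
  have hb0 : b 0 = e.symm (nZero ℓ₀ ℓ₁) := by
    show e.symm (unipEquiv m (bV.baseChange (DualNumber k) 0)) = _
    rw [Module.Basis.baseChange_apply, hbV, ← dIota_apply, unipEquiv_dIota, hm]
  have hact : ∀ (σ : GQ) (v : ρ'.V), ρ'.ρ σ v = e.symm (actY ρbar c σ (e v)) := by
    intro σ v
    rw [actY, ← he σ v, LinearEquiv.symm_apply_apply]
  have hmemL : ∀ {n : DualNumber k ⊗[k] ρbar.V}, n ∈ augY ρbar P c →
      e.symm n ∈ Submodule.span (DualNumber k) {b 0} := by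
    intro n hn
    obtain ⟨s, t, hst⟩ := hN n hn
    rw [hst, map_smul, ← hb0]
    exact Submodule.smul_mem _ _ (Submodule.mem_span_singleton_self _)
  refine ⟨Submodule.span (DualNumber k) {b 0}, ⟨b, rfl⟩, fun σ hσ v hv => ?_, fun σ hσ v => ?_⟩
  · obtain ⟨a, rfl⟩ := Submodule.mem_span_singleton.mp hv
    rw [map_smul]
    refine Submodule.smul_mem _ _ ?_
    have h1 : ρ'.ρ σ (b 0) = e.symm (actY ρbar c σ (nZero ℓ₀ ℓ₁)) := by
      rw [hact, hb0, LinearEquiv.apply_symm_apply]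
    rw [h1]
    exact hmemL (augY_stable ρbar P c hΛ hσ hn₀)
  · have : ρ'.ρ σ v - v = e.symm (actY ρbar c σ (e v) - e v) := by
      rw [map_sub, ← hact, LinearEquiv.symm_apply_apply]
    rw [this]
    exact hmemL (sub_mem_augY ρbar P c hσ _)

end Line

end Fermat.Agent.S56.H906

end
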