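import Fermat.Agent.S56.H906.StructBridge

/-!
# S56 / FLAT-O, piece STRUCT, step S1: the line `I_aug V` (helper906)

`V = ρ̄` flat (a Hopf lattice `ΛV` for the action `actV`), `det ρ̄ = ω`, `p` odd, `V|_{D_P}`
reducible.  Then `augV := k-span {ρ̄(σ) v - v : σ ∈ I_P}` is a `D_P`-stable line:
`exists_isFOLine : ∃ ℓ₀, IsFOLine ρbar P ℓ₀`.

* `≠ ⊥`: inertia at `p` moves `μ_p` and `det ρ̄ = ω`.
* `≠ ⊤`: a nonzero `x` in a `D_P`-stable line is an eigenvector of inertia with eigenvalues in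
  `𝔽_p` (TAMEFROB); by (FT) inertia fixes `x` — impossible by (FI) if `augV = ⊤` — or acts on `x`
  through `ω`, and then inertia is trivial on `V / k x` (determinant), so `augV ≤ k x`.
-/

set_option autoImplicit false
set_option linter.unusedSectionVars false

open scoped TensorProduct

noncomputable section

namespace Fermat.Agent.S56.H906

open Fermat.Agent.S56 Fermat.Agent.S56.H716 Fermat.Agent.S56.H656

section LinAlg

/-- A root of `X ^ p - X` in a field of characteristic `p` is a natural number. -/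
theorem exists_natCast_of_pow_eq_self {F : Type*} [Field F] (p : ℕ) [Fact p.Prime] [CharP F p]
    {x : F} (hx : x ^ p = x) : ∃ n : ℕ, x = (n : F) := by
  have h1 : x ∈ (⊥ : Subfield F) := (Subfield.mem_bot_iff_pow_eq_self F p).mpr hx
  rw [← ZMod.fieldRange_castHom_eq_bot p] at h1
  obtain ⟨z, rfl⟩ := h1
  refine ⟨z.val, ?_⟩
  simp

variable {k : Type} [Field k] {V : Type} [AddCommGroup V] [Module k V]

theorem basis_expand (b : Module.Basis (Fin 2) k V) (v : V) :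
    v = b.repr v 0 • b 0 + b.repr v 1 • b 1 := by
  conv_lhs => rw [← b.sum_repr v]
  rw [Fin.sum_univ_two]

/-- A basis adapted to a proper nonzero subspace of a plane. -/
theorem exists_adapted_basis (hV : Module.finrank k V = 2) (U : Submodule k V) (hU0 : U ≠ ⊥)
    (hU1 : U ≠ ⊤) :
    ∃ b : Module.Basis (Fin 2) k V, b 0 ∈ U ∧ ∀ u ∈ U, ∃ r : k, u = r • b 0 := by
  obtain ⟨x, hxU, hx0⟩ := (Submodule.ne_bot_iff U).mp hU0
  have hex : ∃ y : V, y ∉ U := by
    by_contra hcon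
    push Not at hcon
    exact hU1 (eq_top_iff.mpr fun y _ => hcon y)
  obtain ⟨y, hy⟩ := hex
  have hli : LinearIndependent k ![x, y] := by
    rw [LinearIndependent.pair_iff' hx0]
    intro a ha
    exact hy (ha ▸ U.smul_mem a hxU)
  let b : Module.Basis (Fin 2) k V :=
    basisOfLinearIndependentOfCardEqFinrank hli (by simp [hV])
  have hb0 : b 0 = x := by simp [b]
  have hb1 : b 1 = y := by simp [b]
  refine ⟨b, hb0 ▸ hxU, fun u hu => ?_⟩
  obtain ⟨α, γ, hαγ⟩ : ∃ α γ : k, u = α • b 0 + γ • b 1 := ⟨_, _, basis_expand b u⟩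
  rcases eq_or_ne γ 0 with hγ | hγ
  · exact ⟨α, by rw [hαγ, hγ, zero_smul, add_zero]⟩
  · exfalso
    apply hy
    have : y = γ⁻¹ • (u - α • x) := by
      rw [hαγ, hb0, hb1, add_sub_cancel_left, smul_smul, inv_mul_cancel₀ hγ, one_smul]
    rw [this]
    exact U.smul_mem _ (U.sub_mem hu (U.smul_mem _ hxU))

/-- An endomorphism of a plane with an eigenvector of eigenvalue `n ≠ 0` and determinant `n`
is the identity modulo the eigenvector. -/
theorem sub_eq_smul_of_det (b : Module.Basis (Fin 2) k V) (f : Module.End k V) {n : k}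
    (hn : n ≠ 0) (h0 : f (b 0) = n • b 0) (hdet : LinearMap.det f = n) (v : V) :
    ∃ s : k, f v - v = s • b 0 := by
  have hdet' : LinearMap.det f = n * b.repr (f (b 1)) 1 := by
    rw [← LinearMap.det_toMatrix b, Matrix.det_fin_two]
    simp only [LinearMap.toMatrix_apply, h0, map_smul, Module.Basis.repr_self,
      Finsupp.smul_apply, Finsupp.single_eq_same, smul_eq_mul, mul_one]
    have : (Finsupp.single (0 : Fin 2) (1 : k)) 1 = 0 := by
      rw [Finsupp.single_apply]; simp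
    rw [this, mul_zero, mul_zero, sub_zero]
  have h11 : b.repr (f (b 1)) 1 = 1 := by
    rw [hdet] at hdet'
    exact (mul_right_cancel₀ hn (by rw [one_mul, mul_comm]; exact hdet')).symm
  obtain ⟨β, h1⟩ : ∃ β : k, f (b 1) = β • b 0 + b 1 := by
    refine ⟨b.repr (f (b 1)) 0, ?_⟩
    conv_lhs => rw [basis_expand b (f (b 1))]
    rw [h11, one_smul]
  obtain ⟨α, γ, hv⟩ : ∃ α γ : k, v = α • b 0 + γ • b 1 := ⟨_, _, basis_expand b v⟩
  refine ⟨α * (n - 1) + γ * β, ?_⟩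
  rw [hv, map_add, map_smul, map_smul, h0, h1]
  simp only [smul_add, smul_smul, add_smul, sub_smul, mul_sub, mul_one]
  abel

end LinAlg

section S1

variable {k : Type} [Field k] (ρbar : ResidualGaloisRep k) (P : ValuationSubring Qb)

/-- Inertia is normal in the decomposition group. -/
theorem conj_mem_inertia {τ σ : GQ} (hτ : τ ∈ P.decompositionSubgroup ℚ)
    (hσ : σ ∈ P.inertiaSubgroupIn ℚ) : τ * σ * τ⁻¹ ∈ P.inertiaSubgroupIn ℚ := by
  obtain ⟨t, ht, rfl⟩ := hσ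
  let d : P.decompositionSubgroup ℚ := ⟨τ, hτ⟩
  have hn : (P.inertiaSubgroup ℚ).Normal := MonoidHom.normal_ker _
  exact ⟨d * t * d⁻¹, hn.conj_mem t ht d, rfl⟩

/-- `I_aug V`, the `k`-span of the `ρ̄(σ) v - v`, `σ ∈ I_P`. -/
def augV : Submodule k ρbar.V :=
  Submodule.span k {z | ∃ σ ∈ P.inertiaSubgroupIn ℚ, ∃ v : ρbar.V, z = ρbar.ρ σ v - v}

theorem sub_mem_augV {σ : GQ} (hσ : σ ∈ P.inertiaSubgroupIn ℚ) (v : ρbar.V) :
    ρbar.ρ σ v - v ∈ augV ρbar P :=
  Submodule.subset_span ⟨σ, hσ, v, rfl⟩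

theorem smul_mem_closure_aug (r : k) {x : ρbar.V}
    (hx : x ∈ AddSubgroup.closure
      {z : ρbar.V | ∃ σ ∈ P.inertiaSubgroupIn ℚ, ∃ y : ρbar.V, z = actV ρbar σ y - y}) :
    r • x ∈ AddSubgroup.closure
      {z : ρbar.V | ∃ σ ∈ P.inertiaSubgroupIn ℚ, ∃ y : ρbar.V, z = actV ρbar σ y - y} := by
  induction hx using AddSubgroup.closure_induction with
  | mem z hz =>
    obtain ⟨σ, hσ, y, rfl⟩ := hz
    exact AddSubgroup.subset_closure ⟨σ, hσ, r • y, by rw [actV, actV, map_smul, smul_sub]⟩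
  | zero => rw [smul_zero]; exact zero_mem _
  | add x y _ _ hx hy => rw [smul_add]; exact add_mem hx hy
  | neg x _ hx => rw [smul_neg]; exact neg_mem hx

theorem augV_le_closure {x : ρbar.V} (hx : x ∈ augV ρbar P) :
    x ∈ AddSubgroup.closure
      {z : ρbar.V | ∃ σ ∈ P.inertiaSubgroupIn ℚ, ∃ y : ρbar.V, z = actV ρbar σ y - y} := by
  induction hx using Submodule.span_induction with
  | mem z hz => exact AddSubgroup.subset_closure hz
  | zero => exact zero_mem _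
  | add x y _ _ hx hy => exact add_mem hx hy
  | smul r x _ hx => exact smul_mem_closure_aug ρbar P r hx

theorem augV_stable {τ : GQ} (hτ : τ ∈ P.decompositionSubgroup ℚ) {x : ρbar.V}
    (hx : x ∈ augV ρbar P) : ρbar.ρ τ x ∈ augV ρbar P := by
  induction hx using Submodule.span_induction with
  | mem z hz =>
    obtain ⟨σ, hσ, v, rfl⟩ := hz
    have hconj := conj_mem_inertia P hτ hσ
    have h1 : ρbar.ρ τ (ρbar.ρ σ v - v) =
        ρbar.ρ (τ * σ * τ⁻¹) (ρbar.ρ τ v) - ρbar.ρ τ v := by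
      rw [map_sub, ← Module.End.mul_apply (ρbar.ρ (τ * σ * τ⁻¹)), ← map_mul,
        inv_mul_cancel_right, map_mul, Module.End.mul_apply]
    rw [h1]
    exact sub_mem_augV ρbar P hconj _
  | zero => rw [map_zero]; exact zero_mem _
  | add x y _ _ hx hy => rw [map_add]; exact add_mem hx hy
  | smul r x _ hx => rw [map_smul]; exact Submodule.smul_mem _ _ hx

variable {p : ℕ} [Fact p.Prime] [CharP k p]

theorem augV_ne_bot (hp2 : p ≠ 2)
    (hdet : ∀ (σ : GQ) (a : ℕ), IsCycExp p σ a → LinearMap.det (ρbar.ρ σ) = (a : k))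
    (hP : P.LiesOverPrime p) : augV ρbar P ≠ ⊥ := by
  have hp : p.Prime := Fact.out
  obtain ⟨σ, hσ, a, ha, ha1⟩ := exists_inertia_isCycExp_ne_one hp hp2 k P hP
  intro hbot
  have h1 : ρbar.ρ σ = 1 := by
    apply LinearMap.ext
    intro v
    have := sub_mem_augV ρbar P hσ v
    rw [hbot, Submodule.mem_bot, sub_eq_zero] at this
    rw [this, Module.End.one_apply]
  have := hdet σ a ha
  rw [h1, map_one] at this
  exact ha1 this.symm

theorem augV_ne_top [Finite k] (hFT : FlatTameStatement) (hTF : TameFrobStatement)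
    (hp2 : p ≠ 2)
    (hdet : ∀ (σ : GQ) (a : ℕ), IsCycExp p σ a → LinearMap.det (ρbar.ρ σ) = (a : k))
    (hP : P.LiesOverPrime p)
    (hred : ∃ U : Submodule k ρbar.V, U ≠ ⊥ ∧ U ≠ ⊤ ∧
      ∀ σ ∈ P.decompositionSubgroup ℚ, ∀ x ∈ U, ρbar.ρ σ x ∈ U)
    {ΛV : Subalgebra (Zp p) (ρbar.V → Qb)} (hΛV : IsHL p (actV ρbar) ΛV) :
    augV ρbar P ≠ ⊤ := by
  have hp : p.Prime := Fact.out
  intro htop
  obtain ⟨U, hU0, hU1, hUst⟩ := hred
  obtain ⟨b, hbU, hUb⟩ := exists_adapted_basis ρbar.finrank_eq U hU0 hU1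
  have hx0 : b 0 ≠ 0 := b.ne_zero 0
  -- the character of `D_P` on `U`
  let a : GQ → k := fun σ => b.repr (ρbar.ρ σ (b 0)) 0
  have ha : ∀ σ ∈ P.decompositionSubgroup ℚ, ρbar.ρ σ (b 0) = a σ • b 0 := by
    intro σ hσ
    obtain ⟨r, hr⟩ := hUb _ (hUst σ hσ _ hbU)
    have : a σ = r := by
      show b.repr (ρbar.ρ σ (b 0)) 0 = r
      rw [hr, map_smul, Module.Basis.repr_self, Finsupp.smul_apply, Finsupp.single_eq_same,
        smul_eq_mul, mul_one]
    rw [this, hr]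
  have hloc : IsLocChar P a := by
    refine ⟨?_, ?_, ?_⟩
    · show b.repr (ρbar.ρ 1 (b 0)) 0 = 1
      rw [map_one, Module.End.one_apply, Module.Basis.repr_self, Finsupp.single_eq_same]
    · intro σ hσ τ hτ
      show b.repr (ρbar.ρ (σ * τ) (b 0)) 0 = a σ * a τ
      rw [map_mul, Module.End.mul_apply, ha τ hτ, map_smul, ha σ hσ, smul_smul, map_smul,
        Module.Basis.repr_self, Finsupp.smul_apply, Finsupp.single_eq_same, smul_eq_mul, mul_one,
        mul_comm]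
    · obtain ⟨L, hL, h1⟩ := ρbar.factorsThroughFiniteLevel
      refine ⟨L, hL, fun σ _ τ _ hτ => ?_⟩
      show b.repr (ρbar.ρ (σ * τ) (b 0)) 0 = b.repr (ρbar.ρ σ (b 0)) 0
      rw [map_mul, h1 τ hτ, mul_one]
  have hkill : ∀ x : ρbar.V, p • x = 0 := nsmul_eq_zero_V ρbar
  have : Finite ρbar.V := Module.finite_of_finite k
  have hnat : ∀ τ ∈ P.inertiaSubgroupIn ℚ, ∃ n : ℕ, actV ρbar τ (b 0) = n • b 0 := by
    intro τ hτ
    obtain ⟨n, hn⟩ := exists_natCast_of_pow_eq_self p (hTF p k P hP a hloc τ hτ)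
    refine ⟨n, ?_⟩
    rw [actV, ha τ (mem_decomposition_of_mem_inertia hτ), hn, Nat.cast_smul_eq_nsmul]
  rcases hFT p hp2 ρbar.V (actV ρbar) ΛV hΛV hkill P hP (b 0) hx0 hnat with hfix | hcyc
  · -- inertia fixes `x`: contradiction with (FI)
    apply hx0
    refine flatInertia p hp2 ρbar.V (actV ρbar) ΛV hΛV hkill P hP (b 0) hfix ?_
    exact augV_le_closure ρbar P (htop ▸ Submodule.mem_top)
  · -- inertia acts on `x` through `ω`: then `augV ≤ U`
    apply hU1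
    rw [eq_top_iff, ← htop]
    refine Submodule.span_le.mpr ?_
    rintro z ⟨τ, hτ, v, rfl⟩
    obtain ⟨n, hn⟩ := Fermat.Agent.S56.H966.exists_isCycExp (p := p) hp.ne_zero τ
    have h0 : ρbar.ρ τ (b 0) = (n : k) • b 0 := by
      have := hcyc τ hτ n hn
      rw [actV] at this
      rw [this, Nat.cast_smul_eq_nsmul]
    obtain ⟨s, hs⟩ := sub_eq_smul_of_det b (ρbar.ρ τ) (isCycExp_cast_ne_zero hp hn) h0
      (hdet τ n hn) v
    rw [SetLike.mem_coe, hs]
    exact U.smul_mem _ hbU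

/-- **Step S1.** -/
theorem exists_isFOLine [Finite k] (hFT : FlatTameStatement) (hTF : TameFrobStatement)
    (hp2 : p ≠ 2)
    (hdet : ∀ (σ : GQ) (a : ℕ), IsCycExp p σ a → LinearMap.det (ρbar.ρ σ) = (a : k))
    (hP : P.LiesOverPrime p)
    (hred : ∃ U : Submodule k ρbar.V, U ≠ ⊥ ∧ U ≠ ⊤ ∧
      ∀ σ ∈ P.decompositionSubgroup ℚ, ∀ x ∈ U, ρbar.ρ σ x ∈ U)
    {ΛV : Subalgebra (Zp p) (ρbar.V → Qb)} (hΛV : IsHL p (actV ρbar) ΛV) :
    ∃ ℓ₀ : ρbar.V, IsFOLine ρbar P ℓ₀ ∧ ℓ₀ ∈ augV ρbar P ∧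
      ∀ x ∈ augV ρbar P, ∃ r : k, x = r • ℓ₀ := by
  obtain ⟨b, hb0, hb⟩ := exists_adapted_basis ρbar.finrank_eq (augV ρbar P)
    (augV_ne_bot ρbar P hp2 hdet hP) (augV_ne_top ρbar P hFT hTF hp2 hdet hP hred hΛV)
  refine ⟨b 0, ⟨b.ne_zero 0, fun σ hσ => ?_, fun σ hσ v => ?_⟩, hb0, hb⟩
  · exact hb _ (augV_stable ρbar P hσ hb0)
  · exact hb _ (sub_mem_augV ρbar P hσ v)

end S1

end Fermat.Agent.S56.H906

end
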