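import Fermat.Agent.S56.H906.StructS1

/-!
# S56 / FLAT-O, piece STRUCT, step S2: `N = I_aug Y ⊂ k[ε] n₀` (helper906)

`Y = k[ε] ⊗ V` flat (Hopf lattice `Λ` for `actY ρbar c`), `k ℓ₀ = augV` a line.  Then there is
`ℓ₁` with `n₀ = 1 ⊗ ℓ₀ + ε ⊗ ℓ₁ ∈ augY` and every `n ∈ augY` has coordinates
`(s ℓ₀, s ℓ₁ + t ℓ₀)`  (`exists_n0`).  Uses (CE) for `V ≅ εY` and (CE') for `Y`.
-/

set_option autoImplicit false
set_option linter.unusedSectionVars false

open scoped TensorProduct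

noncomputable section

namespace Fermat.Agent.S56.H906

open Fermat.Agent.S56 Fermat.Agent.S56.H716 Fermat.Agent.S56.H656

section General

variable {p : ℕ} {M : Type} [AddCommGroup M] {act : GQ → M → M}
  {Λ : Subalgebra (Zp p) (M → Qb)}

/-- The action underlying a Hopf lattice is multiplicative. -/
theorem act_mul (hΛ : IsHL p act Λ) (σ τ : GQ) (m : M) : act (σ * τ) m = act σ (act τ m) := by
  by_contra hne
  obtain ⟨f, hf, hfne⟩ := hΛ.separates _ _ hne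
  apply hfne
  rw [hΛ.equivariant f hf (σ * τ), hΛ.equivariant f hf σ, hΛ.equivariant f hf τ]
  rfl

end General

section S2

variable {k : Type} [Field k] (ρbar : ResidualGaloisRep k) (P : ValuationSubring Qb)
  (c : GQ → Module.End k ρbar.V)

/-- `I_aug Y`, the subgroup generated by the `σ y - y`, `σ ∈ I_P`. -/
def augY : AddSubgroup (DualNumber k ⊗[k] ρbar.V) :=
  AddSubgroup.closure
    {z | ∃ σ ∈ P.inertiaSubgroupIn ℚ, ∃ y : DualNumber k ⊗[k] ρbar.V, z = actY ρbar c σ y - y}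

theorem sub_mem_augY {σ : GQ} (hσ : σ ∈ P.inertiaSubgroupIn ℚ) (y : DualNumber k ⊗[k] ρbar.V) :
    actY ρbar c σ y - y ∈ augY ρbar P c :=
  AddSubgroup.subset_closure ⟨σ, hσ, y, rfl⟩

theorem actY_smul (σ : GQ) (r : k) (y : DualNumber k ⊗[k] ρbar.V) :
    actY ρbar c σ (r • y) = r • actY ρbar c σ y := by
  unfold actY
  exact LinearMap.map_smul_of_tower _ r y

theorem actY_sub (σ : GQ) (y y' : DualNumber k ⊗[k] ρbar.V) :
    actY ρbar c σ (y - y') = actY ρbar c σ y - actY ρbar c σ y' := by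
  unfold actY
  exact map_sub _ y y'

theorem dPi0_actY (σ : GQ) (y : DualNumber k ⊗[k] ρbar.V) :
    dPi0 (actY ρbar c σ y) = ρbar.ρ σ (dPi0 y) := dPi0_liftEnd ρbar c σ y

theorem dPi1_actY (σ : GQ) (y : DualNumber k ⊗[k] ρbar.V) :
    dPi1 (actY ρbar c σ y) = ρbar.ρ σ (dPi1 y) + c σ (ρbar.ρ σ (dPi0 y)) :=
  dPi1_liftEnd ρbar c σ y

theorem smul_mem_augY (r : k) {n : DualNumber k ⊗[k] ρbar.V} (hn : n ∈ augY ρbar P c) :
    r • n ∈ augY ρbar P c := by
  unfold augY at hn ⊢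
  induction hn using AddSubgroup.closure_induction with
  | mem z hz =>
    obtain ⟨σ, hσ, y, rfl⟩ := hz
    exact AddSubgroup.subset_closure ⟨σ, hσ, r • y, by rw [actY_smul, smul_sub]⟩
  | zero => rw [smul_zero]; exact zero_mem _
  | add x y _ _ hx hy => rw [smul_add]; exact add_mem hx hy
  | neg x _ hx => rw [smul_neg]; exact neg_mem hx

/-- The reduction of `I_aug Y` lies in `I_aug V`. -/
theorem dPi0_mem_augV {n : DualNumber k ⊗[k] ρbar.V} (hn : n ∈ augY ρbar P c) :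
    dPi0 n ∈ augV ρbar P := by
  unfold augY at hn
  induction hn using AddSubgroup.closure_induction with
  | mem z hz =>
    obtain ⟨σ, hσ, y, rfl⟩ := hz
    rw [map_sub, dPi0_actY]
    exact sub_mem_augV ρbar P hσ _
  | zero => rw [map_zero]; exact zero_mem _
  | add x y _ _ hx hy => rw [map_add]; exact add_mem hx hy
  | neg x _ hx => rw [map_neg]; exact neg_mem hx

/-- `I_aug Y → I_aug V` is onto. -/
theorem exists_mem_augY_dPi0 {x : ρbar.V} (hx : x ∈ augV ρbar P) :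
    ∃ n ∈ augY ρbar P c, dPi0 n = x := by
  unfold augV at hx
  induction hx using Submodule.span_induction with
  | mem z hz =>
    obtain ⟨σ, hσ, v, rfl⟩ := hz
    refine ⟨_, sub_mem_augY ρbar P c hσ (dIota v), ?_⟩
    rw [map_sub, dPi0_actY, dPi0_dIota]
  | zero => exact ⟨0, zero_mem _, map_zero _⟩
  | add x y _ _ hx hy =>
    obtain ⟨n, hn, rfl⟩ := hx
    obtain ⟨n', hn', rfl⟩ := hy
    exact ⟨n + n', add_mem hn hn', map_add _ _ _⟩
  | smul r x _ hx =>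
    obtain ⟨n, hn, rfl⟩ := hx
    exact ⟨r • n, smul_mem_augY ρbar P c r hn, map_smul _ _ _⟩

theorem closure_le_augV {w : ρbar.V}
    (hw : w ∈ AddSubgroup.closure
      {z : ρbar.V | ∃ σ ∈ P.inertiaSubgroupIn ℚ, ∃ y : ρbar.V, z = actV ρbar σ y - y}) :
    w ∈ augV ρbar P := by
  induction hw using AddSubgroup.closure_induction with
  | mem z hz =>
    obtain ⟨σ, hσ, y, rfl⟩ := hz
    exact sub_mem_augV ρbar P hσ y
  | zero => exact zero_mem _
  | add x y _ _ hx hy => exact add_mem hx hy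
  | neg x _ hx => exact neg_mem hx

variable {p : ℕ} [Fact p.Prime] [CharP k p] [Finite k]

/-- An element of `I_aug Y ∩ εY` lies in `ε · I_aug V`     (CE' for `Y`, CE for `V ≅ εY`). -/
theorem dPi1_mem_augV (hCE : CEStatement) (hp2 : p ≠ 2) (hP : P.LiesOverPrime p)
    {Λ : Subalgebra (Zp p) ((DualNumber k ⊗[k] ρbar.V) → Qb)} (hΛ : IsHL p (actY ρbar c) Λ)
    {n : DualNumber k ⊗[k] ρbar.V} (hn : n ∈ augY ρbar P c) (h0 : dPi0 n = 0) :
    dPi1 n ∈ augV ρbar P := by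
  have hne : n = epsIota ρbar (dPi1 n) := by
    apply coord_ext
    · rw [h0, dPi0_epsIota]
    · rw [dPi1_epsIota]
  have hred := (mem_redKer P hΛ hP n).mp (closure_le_redKer P hΛ hP hn)
  have : Finite ρbar.V := Module.finite_of_finite k
  apply closure_le_augV
  refine hCE p hp2 ρbar.V (actV ρbar) (latticeV ρbar Λ) (isHL_rhobar ρbar c hΛ)
    (nsmul_eq_zero_V ρbar) P hP (dPi1 n) ?_
  intro g hg
  obtain ⟨f, hf, rfl⟩ := (mem_latticeV ρbar).mp hg
  show P.valuation (f (epsIota ρbar (dPi1 n)) - f (epsIota ρbar 0)) < 1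
  rw [← hne, map_zero]
  exact hred f hf

/-- **Step S2.** -/
theorem exists_n0 (hCE : CEStatement) (hp2 : p ≠ 2) (hP : P.LiesOverPrime p)
    {Λ : Subalgebra (Zp p) ((DualNumber k ⊗[k] ρbar.V) → Qb)} (hΛ : IsHL p (actY ρbar c) Λ)
    {ℓ₀ : ρbar.V} (hmem : ℓ₀ ∈ augV ρbar P) (haug : ∀ x ∈ augV ρbar P, ∃ r : k, x = r • ℓ₀) :
    ∃ ℓ₁ : ρbar.V, ∀ n ∈ augY ρbar P c, ∃ s t : k, dPi0 n = s • ℓ₀ ∧ dPi1 n = s • ℓ₁ + t • ℓ₀ := by
  obtain ⟨n₀, hn₀, h0⟩ := exists_mem_augY_dPi0 ρbar P c hmem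
  refine ⟨dPi1 n₀, fun n hn => ?_⟩
  obtain ⟨s, hs⟩ := haug _ (dPi0_mem_augV ρbar P c hn)
  have hn' : n - s • n₀ ∈ augY ρbar P c := sub_mem hn (smul_mem_augY ρbar P c s hn₀)
  have h0' : dPi0 (n - s • n₀) = 0 := by
    rw [map_sub, map_smul, h0, hs, sub_self]
  obtain ⟨t, ht⟩ := haug _ (dPi1_mem_augV ρbar P c hCE hp2 hP hΛ hn' h0')
  refine ⟨s, t, hs, ?_⟩
  rw [map_sub, map_smul] at ht
  rw [← ht]
  abel

end S2

end Fermat.Agent.S56.H906

end
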